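/-
ESJ / RED — R1 for ALL primes `ℓ ∤ N` from the three cases:

* `ℓ ≥ 5` : R1 at level `N` (base function `J(q^N)`);
* `ℓ = 3` : R1 at every level `M` with `2 ∣ M`, `3 ∤ M` (base function the Hauptmodul of level `2`
  composed with `q ↦ q^(M/2)`), and R2 at such levels; descent from `2N` to `N` when `2 ∤ N`
  (`Lib/Red/LevelDescentDeg.redTorsionInjective_three`);
* `ℓ = 2` : the same with `2 ↔ 3` (`redTorsionInjective_two`).
-/
import Mathlib
import Fermat.Agent.ESJ.Interfaces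
import Fermat.Agent.Lib.Red.LevelDescentDeg

set_option autoImplicit false

namespace Fermat.Agent.ESJ

open ModularCurve AlgebraicCurve

/-- **R1 for all `ℓ ∤ N`** from R1 at level `N` for `ℓ ≥ 5` and R1 + R2 at the levels divisible
by the auxiliary prime for `ℓ = 3` (auxiliary prime `2`) and `ℓ = 2` (auxiliary prime `3`). -/
theorem redTorsionInjective_of_cases (N ℓ : ℕ) [NeZero N] (hℓ : ℓ.Prime) (hℓN : ¬ ℓ ∣ N)
    (A : ValuationSubring (AlgebraicClosure ℚ))
    (H5 : 5 ≤ ℓ → RedTorsionInjective N ℓ A)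
    (H3 : ℓ = 3 → ∀ (M : ℕ) [NeZero M], 2 ∣ M → ¬ 3 ∣ M →
      RedTorsionInjective M 3 A ∧ (¬ 2 ∣ N → ReductionInputsModL A M))
    (H2 : ℓ = 2 → ∀ (M : ℕ) [NeZero M], 3 ∣ M → ¬ 2 ∣ M →
      RedTorsionInjective M 2 A ∧ (¬ 3 ∣ N → ReductionInputsModL A M)) :
    RedTorsionInjective N ℓ A := by
  by_cases h5 : 5 ≤ ℓ
  · exact H5 h5
  have hℓ2 := hℓ.two_le
  have h23 : ℓ = 2 ∨ ℓ = 3 := by
    have h4 : ℓ ≠ 4 := by
      rintro rfl
      exact absurd hℓ (by decide)
    omega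
  rcases h23 with rfl | rfl
  · -- `ℓ = 2`, auxiliary prime `3`
    by_cases h3N : 3 ∣ N
    · exact (H2 rfl N h3N hℓN).1
    · haveI : NeZero (N * 3) := ⟨Nat.mul_ne_zero (NeZero.ne N) (by norm_num)⟩
      have hM : ¬ 2 ∣ N * 3 := by
        intro h
        rcases (Nat.Prime.dvd_mul Nat.prime_two).mp h with h | h
        · exact hℓN h
        · exact absurd h (by decide)
      obtain ⟨hR1, hR2⟩ := H2 rfl (N * 3) (Dvd.intro_left N rfl) hM
      exact Fermat.Agent.Lib.Red.LevelDescent.redTorsionInjective_two N h3N A (hR2 h3N) hR1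
  · -- `ℓ = 3`, auxiliary prime `2`
    by_cases h2N : 2 ∣ N
    · exact (H3 rfl N h2N hℓN).1
    · haveI : NeZero (N * 2) := ⟨Nat.mul_ne_zero (NeZero.ne N) (by norm_num)⟩
      have hM : ¬ 3 ∣ N * 2 := by
        intro h
        rcases (Nat.Prime.dvd_mul Nat.prime_three).mp h with h | h
        · exact hℓN h
        · exact absurd h (by decide)
      obtain ⟨hR1, hR2⟩ := H3 rfl (N * 2) (Dvd.intro_left N rfl) hM
      exact Fermat.Agent.Lib.Red.LevelDescent.redTorsionInjective_three N h2N A (hR2 h2N) hR1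

end Fermat.Agent.ESJ
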