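/-
ESJ / RED — the "good pairs" `(M, ℓ)`:  `ℓ ∤ M` and (`ℓ ≥ 5`, or `ℓ = 3` and `2 ∣ M`, or `ℓ = 2`
and `3 ∣ M`).  At a good pair the curve `X₀(M)` has a base function whose branch values stay
distinct modulo `ℓ` (`J(q^M)`; the Hauptmoduln of level `2`, `3`).

* `redTorsionInjective_good` : **R1 at every good pair** (no hypotheses; route G-A + KUMMER,
  `ESJ/Red/R1GA`);
* `good_of_R2` : R2 at the good pairs ⟹ the hypothesis `hR` of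
  `ESJ/S37OfGood.specializationExists_of_good` (R1 ∧ R2 at the good pairs);
* `redTorsionInjective_of_R2` : R2 at the good pairs ⟹ **R1 for ALL `ℓ ∤ N`** (descent from level
  `2N`, `3N` for `ℓ = 3`, `2`: `ESJ/Red/R1All`, `Lib/Red/LevelDescentDeg`);
* `eq_zero_of_reductionModL_eq_zero_of_R2` : R2 at the good pairs ⟹ the frozen statement S18.
-/
import Mathlib
import Fermat.Agent.ESJ.S18Assembly
import Fermat.Agent.ESJ.Red.R1GA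
import Fermat.Agent.ESJ.Red.R1All

set_option autoImplicit false

namespace Fermat.Agent.ESJ

open ModularCurve AlgebraicCurve

/-- **R1 at every good pair.** -/
theorem redTorsionInjective_good (M : ℕ) [NeZero M] (ℓ : ℕ) (hℓ : ℓ.Prime) (hℓM : ¬ ℓ ∣ M)
    (hgood : 5 ≤ ℓ ∨ (ℓ = 3 ∧ 2 ∣ M) ∨ (ℓ = 2 ∧ 3 ∣ M))
    (A : ValuationSubring (AlgebraicClosure ℚ)) (hA : A.LiesOverPrime ℓ) :
    RedTorsionInjective M ℓ A := by
  rcases hgood with h5 | ⟨rfl, h2M⟩ | ⟨rfl, h3M⟩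
  · exact redTorsionInjective_ge_five M ℓ hℓ hℓM h5 A hA
  · obtain ⟨m, hm⟩ := h2M
    have hm0 : m ≠ 0 := by
      rintro rfl
      exact NeZero.ne M (by rw [hm, mul_zero])
    have : NeZero m := ⟨hm0⟩
    exact redTorsionInjective_three_of_two_dvd M m (by rw [hm, mul_comm]) hℓM A hA
  · obtain ⟨m, hm⟩ := h3M
    have hm0 : m ≠ 0 := by
      rintro rfl
      exact NeZero.ne M (by rw [hm, mul_zero])
    have : NeZero m := ⟨hm0⟩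
    exact redTorsionInjective_two_of_three_dvd M m (by rw [hm, mul_comm]) hℓM A hA

/-- R2 at the good pairs gives R1 ∧ R2 at the good pairs. -/
theorem good_of_R2
    (hR2 : ∀ (M : ℕ) [NeZero M] (ℓ : ℕ), ℓ.Prime → ¬ ℓ ∣ M →
      (5 ≤ ℓ ∨ (ℓ = 3 ∧ 2 ∣ M) ∨ (ℓ = 2 ∧ 3 ∣ M)) →
      ∀ A : ValuationSubring (AlgebraicClosure ℚ), A.LiesOverPrime ℓ →
        ReductionInputsModL A M) :
    ∀ (M : ℕ) [NeZero M] (ℓ : ℕ), ℓ.Prime → ¬ ℓ ∣ M →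
      (5 ≤ ℓ ∨ (ℓ = 3 ∧ 2 ∣ M) ∨ (ℓ = 2 ∧ 3 ∣ M)) →
      ∀ A : ValuationSubring (AlgebraicClosure ℚ), A.LiesOverPrime ℓ →
        ReductionInputsModL A M ∧ RedTorsionInjective M ℓ A :=
  fun M _ ℓ hℓ hℓM hgood A hA =>
    ⟨hR2 M ℓ hℓ hℓM hgood A hA, redTorsionInjective_good M ℓ hℓ hℓM hgood A hA⟩

/-- **R1 for all `ℓ ∤ N`** from R2 at the good pairs `(2N, 3)`, `(3N, 2)`. -/
theorem redTorsionInjective_of_R2
    (hR2 : ∀ (M : ℕ) [NeZero M] (ℓ : ℕ), ℓ.Prime → ¬ ℓ ∣ M →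
      ((ℓ = 3 ∧ 2 ∣ M) ∨ (ℓ = 2 ∧ 3 ∣ M)) →
      ∀ A : ValuationSubring (AlgebraicClosure ℚ), A.LiesOverPrime ℓ →
        ReductionInputsModL A M)
    (N ℓ : ℕ) [NeZero N] (hℓ : ℓ.Prime) (hℓN : ¬ ℓ ∣ N)
    (A : ValuationSubring (AlgebraicClosure ℚ)) (hA : A.LiesOverPrime ℓ) :
    RedTorsionInjective N ℓ A := by
  refine redTorsionInjective_of_cases N ℓ hℓ hℓN A
    (fun h5 => redTorsionInjective_ge_five N ℓ hℓ hℓN h5 A hA) ?_ ?_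
  · rintro rfl M _ h2M h3M
    exact ⟨redTorsionInjective_good M 3 hℓ h3M (Or.inr (Or.inl ⟨rfl, h2M⟩)) A hA,
      fun _ => hR2 M 3 hℓ h3M (Or.inl ⟨rfl, h2M⟩) A hA⟩
  · rintro rfl M _ h3M h2M
    exact ⟨redTorsionInjective_good M 2 hℓ h2M (Or.inr (Or.inr ⟨rfl, h3M⟩)) A hA,
      fun _ => hR2 M 2 hℓ h2M (Or.inr ⟨rfl, h3M⟩) A hA⟩

/-- **S18 from R2 at the good pairs `(2N, 3)`, `(3N, 2)`.** -/
theorem eq_zero_of_reductionModL_eq_zero_of_R2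
    (hR2 : ∀ (M : ℕ) [NeZero M] (ℓ : ℕ), ℓ.Prime → ¬ ℓ ∣ M →
      ((ℓ = 3 ∧ 2 ∣ M) ∨ (ℓ = 2 ∧ 3 ∣ M)) →
      ∀ A : ValuationSubring (AlgebraicClosure ℚ), A.LiesOverPrime ℓ →
        ReductionInputsModL A M)
    (N : ℕ) [NeZero N] {ℓ : ℕ} (hℓ : ℓ.Prime) (hℓN : ¬ ℓ ∣ N)
    (A : ValuationSubring (AlgebraicClosure ℚ)) (hA : A.LiesOverPrime ℓ)
    (h : ModularCurve.ReductionInputsModL A N) (m : ℕ) (hm : ¬ ℓ ∣ m)
    (z : ModularCurve.JZero N) (hmz : m • z = 0) (hz : ModularCurve.reductionModL A N z = 0) :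
    z = 0 :=
  eq_zero_of_reductionModL_eq_zero_of_redTorsionInjective N A
    (redTorsionInjective_of_R2 hR2 N ℓ hℓ hℓN A hA) h m hm z hmz hz

end Fermat.Agent.ESJ
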