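/-
ESJ / RED — **R2 (`ReductionInputsModL`) AT EVERY GOOD PAIR** `(M, ℓ)`: `ℓ ∤ M` and (`ℓ ≥ 5`, or
`ℓ = 3` and `2 ∣ M`, or `ℓ = 2` and `3 ∣ M`).

* `exists_data_of_good` : at a good pair there is a base function `B : BaseFn.Data A (residue A) M`
  whose branch values in characteristic `0` are `0` and an integer `z` prime to `ℓ`
  (`J(q^M)`, `z = 1728`; `y₂(q^(M/2))`, `z = -64`; `t₃(q^(M/3))`, `z = -27`);
* `reductionInputsModL_of_branch` : R2 for a base function with a finite branch set on which the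
  residue map is injective — `Lib/Red/InstPlace.reductionInputsAlong` (PLACE, helper37/helper90)
  fed with `Lib/Red/DiscInst.lift_x`, `lift_inv` (DISC: good reduction of the two charts,
  helper15/helper91/helper86) and `DiscPlace.branch_of_finset`, `branch_inv_of_finset`;
* `reductionInputsModL_good` : **R2 at every good pair**;
* `good_pairs` : R1 ∧ R2 at every good pair (the hypothesis `hR` of
  `ESJ/S37OfGood.specializationExists_of_good`);
* `redTorsionInjective_all` : **R1 for ALL primes `ℓ ∤ N`**;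
* `eq_zero_of_reductionModL_eq_zero` : the frozen statement S18.
-/
import Mathlib
import Fermat.Agent.ESJ.Red.Good
import Fermat.Agent.Lib.Red.InstPlace
import Fermat.Agent.Lib.Red.DiscInst
import Fermat.Agent.Lib.Red.DiscPlace
import Fermat.Agent.Lib.Red.HauptBranchInst
import Fermat.Agent.Lib.Red.BranchInst

set_option autoImplicit false

namespace Fermat.Agent.ESJ

open ModularCurve AlgebraicCurve Fermat.Agent.Lib.Red Fermat.Agent.Lib.FF

noncomputable section

set_option synthInstance.maxHeartbeats 400000 in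
set_option maxHeartbeats 1000000 in
/-- **R2 for a base function with good branch values.** -/
theorem reductionInputsModL_of_branch (N ℓ : ℕ) [NeZero N] (hℓ : ℓ.Prime) (hℓN : ¬ ℓ ∣ N)
    (A : ValuationSubring (AlgebraicClosure ℚ)) (hA : A.LiesOverPrime ℓ)
    (B : BaseFn.Data A (IsLocalRing.residue A) N)
    (Bv : Finset (AlgebraicClosure ℚ)) (hBvA : ∀ b ∈ Bv, b ∈ A)
    (hBvinj : ∀ b b' : A, (b : AlgebraicClosure ℚ) ∈ Bv → (b' : AlgebraicClosure ℚ) ∈ Bv →
      IsLocalRing.residue A b = IsLocalRing.residue A b' → b = b')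
    (hB : ∀ (P : Place (AlgebraicClosure ℚ)
          ↥(laurentBaseChange (AlgebraicClosure ℚ) (modularFunctionFieldFull N)))
        (c : AlgebraicClosure ℚ), c ∉ Bv →
      0 < P.ord (B.x - algebraMap (AlgebraicClosure ℚ)
        ↥(laurentBaseChange (AlgebraicClosure ℚ) (modularFunctionFieldFull N)) c) →
      P.ord (B.x - algebraMap (AlgebraicClosure ℚ)
        ↥(laurentBaseChange (AlgebraicClosure ℚ) (modularFunctionFieldFull N)) c) = 1) :
    ReductionInputsModL A N := by
  classical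
  have : IsAlgClosed (IsLocalRing.ResidueField A) := CharP.isAlgClosed_residueField A
  have hNk : (N : IsLocalRing.ResidueField A) ≠ 0 := natCast_residue_ne_zero' A hℓ hA N hℓN
  have hπ := residue_eq_zero_of_not_isUnit' A
  have hsurj : Function.Surjective (IsLocalRing.residue A) := IsLocalRing.residue_surjective
  have hsep := Disc.isSeparable_xt B hπ hNk
  exact InstPlace.reductionInputsAlong B hπ hsurj hNk
    (Disc.lift_x B hπ hsurj hNk
      (DiscPlace.branch_of_finset A (IsLocalRing.residue A) hsurj B.x Bv hBvinj hB))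
    (Disc.lift_inv B hπ hsurj hNk
      (DiscPlace.branch_inv_of_finset A (IsLocalRing.residue A) hsurj B.x (B.x_ne_zero hπ hNk)
        Bv hBvA hBvinj hB))

set_option synthInstance.maxHeartbeats 400000 in
set_option maxHeartbeats 1000000 in
/-- **R2, two branch values `0` and an integer `z` prime to `ℓ`.** -/
theorem reductionInputsModL_of_branch_int (N ℓ : ℕ) [NeZero N] (hℓ : ℓ.Prime) (hℓN : ¬ ℓ ∣ N)
    (A : ValuationSubring (AlgebraicClosure ℚ)) (hA : A.LiesOverPrime ℓ)
    (B : BaseFn.Data A (IsLocalRing.residue A) N) (z : ℤ) (hz : ¬ (ℓ : ℤ) ∣ z)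
    (hB : ∀ (P : Place (AlgebraicClosure ℚ)
          ↥(laurentBaseChange (AlgebraicClosure ℚ) (modularFunctionFieldFull N)))
        (c : AlgebraicClosure ℚ), c ≠ 0 → c ≠ (z : AlgebraicClosure ℚ) →
      0 < P.ord (B.x - algebraMap (AlgebraicClosure ℚ)
        ↥(laurentBaseChange (AlgebraicClosure ℚ) (modularFunctionFieldFull N)) c) →
      P.ord (B.x - algebraMap (AlgebraicClosure ℚ)
        ↥(laurentBaseChange (AlgebraicClosure ℚ) (modularFunctionFieldFull N)) c) = 1) :
    ReductionInputsModL A N := by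
  classical
  have hzk := intCast_residue_ne_zero' A hℓ hA z hz
  have hzA : ((z : ℤ) : AlgebraicClosure ℚ) ∈ A := intCast_mem A z
  have hres0 : ∀ b : A, (b : AlgebraicClosure ℚ) = 0 → IsLocalRing.residue A b = 0 := by
    intro b hb
    have : b = 0 := Subtype.ext hb
    rw [this, map_zero]
  have hresz : ∀ b : A, (b : AlgebraicClosure ℚ) = (z : AlgebraicClosure ℚ) →
      IsLocalRing.residue A b = (z : IsLocalRing.ResidueField A) := by
    intro b hb
    have : b = ((z : ℤ) : A) := Subtype.ext (by rw [hb]; push_cast; rfl)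
    rw [this, map_intCast]
  refine reductionInputsModL_of_branch N ℓ hℓ hℓN A hA B {0, (z : AlgebraicClosure ℚ)} ?_ ?_ ?_
  · intro b hb
    rw [Finset.mem_insert, Finset.mem_singleton] at hb
    rcases hb with rfl | rfl
    · exact A.zero_mem
    · exact hzA
  · intro b b' hb hb' hbb
    rw [Finset.mem_insert, Finset.mem_singleton] at hb hb'
    rcases hb with hb | hb <;> rcases hb' with hb' | hb'
    · exact Subtype.ext (hb.trans hb'.symm)
    · exfalso
      rw [hres0 b hb, hresz b' hb'] at hbb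
      exact hzk hbb.symm
    · exfalso
      rw [hres0 b' hb', hresz b hb] at hbb
      exact hzk hbb
    · exact Subtype.ext (hb.trans hb'.symm)
  · intro P c hc hP
    rw [Finset.mem_insert, Finset.mem_singleton, not_or] at hc
    exact hB P c hc.1 hc.2 hP

set_option synthInstance.maxHeartbeats 400000 in
set_option maxHeartbeats 1000000 in
/-- **The base function of a good pair.** -/
theorem exists_data_of_good (M : ℕ) [NeZero M] (ℓ : ℕ) (hℓ : ℓ.Prime)
    (hgood : 5 ≤ ℓ ∨ (ℓ = 3 ∧ 2 ∣ M) ∨ (ℓ = 2 ∧ 3 ∣ M))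
    (A : ValuationSubring (AlgebraicClosure ℚ)) (hA : A.LiesOverPrime ℓ) :
    ∃ (B : BaseFn.Data A (IsLocalRing.residue A) M) (z : ℤ), ¬ (ℓ : ℤ) ∣ z ∧
      ∀ (P : Place (AlgebraicClosure ℚ)
          ↥(laurentBaseChange (AlgebraicClosure ℚ) (modularFunctionFieldFull M)))
        (c : AlgebraicClosure ℚ), c ≠ 0 → c ≠ (z : AlgebraicClosure ℚ) →
      0 < P.ord (B.x - algebraMap (AlgebraicClosure ℚ)
        ↥(laurentBaseChange (AlgebraicClosure ℚ) (modularFunctionFieldFull M)) c) →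
      P.ord (B.x - algebraMap (AlgebraicClosure ℚ)
        ↥(laurentBaseChange (AlgebraicClosure ℚ) (modularFunctionFieldFull M)) c) = 1 := by
  rcases hgood with h5 | ⟨rfl, h2M⟩ | ⟨rfl, h3M⟩
  · have hz : ¬ (ℓ : ℤ) ∣ (1728 : ℤ) := by
      intro h
      have h1 : ℓ ∣ 1728 := by exact_mod_cast h
      have h2 : (1728 : ℕ) = 2 ^ 6 * 3 ^ 3 := by norm_num
      rw [h2] at h1
      rcases (Nat.Prime.dvd_mul hℓ).mp h1 with h3 | h3
      · have := (Nat.prime_dvd_prime_iff_eq hℓ Nat.prime_two).mp (hℓ.dvd_of_dvd_pow h3)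
        omega
      · have := (Nat.prime_dvd_prime_iff_eq hℓ Nat.prime_three).mp (hℓ.dvd_of_dvd_pow h3)
        omega
    refine ⟨BaseFn.Data.ofJ A (IsLocalRing.residue A) M, 1728, hz, ?_⟩
    intro P c hc0 hc1 hP
    rw [BaseFn.Data.ofJ_x] at hP ⊢
    refine BranchInst.ord_xL_sub_generic M c hc0 ?_ P hP
    intro h
    apply hc1
    rw [h]
    norm_num
  · obtain ⟨m, hm⟩ := h2M
    have hm0 : m ≠ 0 := by
      rintro rfl
      exact NeZero.ne M (by rw [hm, mul_zero])
    have : NeZero m := ⟨hm0⟩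
    have hM : M = m * 2 := by rw [hm, mul_comm]
    have h2 : (2 : IsLocalRing.ResidueField A) ≠ 0 := by
      have := natCast_residue_ne_zero' A Nat.prime_three hA 2 (by decide)
      exact_mod_cast this
    refine ⟨BaseFn.ofHaupt2 A (IsLocalRing.residue A) M m hM h2, -64, by decide, ?_⟩
    intro P c hc0 hc1 hP
    refine BaseFn.ord_ofHaupt2_sub_eq_one A (IsLocalRing.residue A) M m hM h2 c hc0 ?_ P hP
    intro h
    apply hc1
    rw [h]
    norm_num
  · obtain ⟨m, hm⟩ := h3M
    have hm0 : m ≠ 0 := by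
      rintro rfl
      exact NeZero.ne M (by rw [hm, mul_zero])
    have : NeZero m := ⟨hm0⟩
    have hM : M = m * 3 := by rw [hm, mul_comm]
    have h3 : (3 : IsLocalRing.ResidueField A) ≠ 0 := by
      have := natCast_residue_ne_zero' A Nat.prime_two hA 3 (by decide)
      exact_mod_cast this
    refine ⟨BaseFn.ofHaupt3 A (IsLocalRing.residue A) M m hM h3, -27, by decide, ?_⟩
    intro P c hc0 hc1 hP
    refine BaseFn.ord_ofHaupt3_sub_eq_one A (IsLocalRing.residue A) M m hM h3 c hc0 ?_ P hP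
    intro h
    apply hc1
    rw [h]
    norm_num

/-- **R2 at every good pair.** -/
theorem reductionInputsModL_good (M : ℕ) [NeZero M] (ℓ : ℕ) (hℓ : ℓ.Prime) (hℓM : ¬ ℓ ∣ M)
    (hgood : 5 ≤ ℓ ∨ (ℓ = 3 ∧ 2 ∣ M) ∨ (ℓ = 2 ∧ 3 ∣ M))
    (A : ValuationSubring (AlgebraicClosure ℚ)) (hA : A.LiesOverPrime ℓ) :
    ReductionInputsModL A M := by
  obtain ⟨B, z, hz, hB⟩ := exists_data_of_good M ℓ hℓ hgood A hA
  exact reductionInputsModL_of_branch_int M ℓ hℓ hℓM A hA B z hz hB

/-- **R1 ∧ R2 at every good pair** (the hypothesis `hR` of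
`ESJ/S37OfGood.specializationExists_of_good`). -/
theorem good_pairs : ∀ (M : ℕ) [NeZero M] (ℓ : ℕ), ℓ.Prime → ¬ ℓ ∣ M →
    (5 ≤ ℓ ∨ (ℓ = 3 ∧ 2 ∣ M) ∨ (ℓ = 2 ∧ 3 ∣ M)) →
    ∀ A : ValuationSubring (AlgebraicClosure ℚ), A.LiesOverPrime ℓ →
      ReductionInputsModL A M ∧ RedTorsionInjective M ℓ A :=
  good_of_R2 fun M _ ℓ hℓ hℓM hgood A hA => reductionInputsModL_good M ℓ hℓ hℓM hgood A hA

/-- **R1 for all primes `ℓ ∤ N`.** -/
theorem redTorsionInjective_all (N ℓ : ℕ) [NeZero N] (hℓ : ℓ.Prime) (hℓN : ¬ ℓ ∣ N)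
    (A : ValuationSubring (AlgebraicClosure ℚ)) (hA : A.LiesOverPrime ℓ) :
    RedTorsionInjective N ℓ A :=
  redTorsionInjective_of_R2
    (fun M _ ℓ' hℓ' hℓM hgood A' hA' =>
      reductionInputsModL_good M ℓ' hℓ' hℓM (Or.inr hgood) A' hA') N ℓ hℓ hℓN A hA

/-- **S18.** -/
theorem eq_zero_of_reductionModL_eq_zero (N : ℕ) [NeZero N] {ℓ : ℕ} (hℓ : ℓ.Prime)
    (hℓN : ¬ ℓ ∣ N) (A : ValuationSubring (AlgebraicClosure ℚ)) (hA : A.LiesOverPrime ℓ)
    (h : ModularCurve.ReductionInputsModL A N) (m : ℕ) (hm : ¬ ℓ ∣ m)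
    (z : ModularCurve.JZero N) (hmz : m • z = 0) (hz : ModularCurve.reductionModL A N z = 0) :
    z = 0 :=
  eq_zero_of_reductionModL_eq_zero_of_redTorsionInjective N A
    (redTorsionInjective_all N ℓ hℓ hℓN A hA) h m hm z hmz hz

end

end Fermat.Agent.ESJ
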