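/-
ESJ / RED — **R1 for `ℓ ∤ N`, modulo the DISC outputs** (good reduction of the two charts of
`x = J(q^N)` and unramifiedness of `F~ / k(x̄)` outside a finite set of values).

`redTorsionInjective_of_disc` : `RedTorsionInjective N ℓ A` from

* `hT3`, `hT3'` : every function of `F~` regular on the finite chart (resp. the chart at infinity)
  of `x̄` lifts to a function of `O_w` regular on the corresponding chart of `x`;
* `hT2` : outside a finite set of values `γ`, every place of `F~` over `x̄ = γ` is unramified.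

Everything else (`IsFF1` on both sides, the degree inequality, T4, GEN, NS, ONESTEP, the spec of
a place reduction on units of `O_w`) is on main and is discharged here.

`redTorsionInjective_of_lift` : the same with `hT2` discharged: `F~ / k(x̄)` is separable
(`Lib/FF/ModLSep`), so `dx̄` has a divisor (`Lib/FF/CanonicalIsFF1`) and `x̄` is unramified outside
its support (`exists_unram_set`).  So **R1 needs only `hT3`, `hT3'`**.
-/
import Mathlib
import Fermat.Agent.ESJ.Interfaces
import Fermat.Agent.Lib.Red.OneStepGlue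
import Fermat.Agent.Lib.Red.InstGenus
import Fermat.Agent.Lib.Red.OrthInst
import Fermat.Agent.Lib.FF.CharP.ModLInst
import Fermat.Agent.Lib.FF.CanonicalIsFF1
import Fermat.Agent.Lib.FF.ModLSep

set_option autoImplicit false

namespace Fermat.Agent.ESJ

open ModularCurve AlgebraicCurve Fermat.Agent.Lib.Red Fermat.Agent.Lib.FF

noncomputable section

open scoped IntermediateField in
/-- **FF-UNRAM.**  A separating element `y` of a function field of one variable is regular and
unramified outside a finite set of places (the support of `div (dy)` and the poles of `y`). -/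
theorem exists_unram_set {K F : Type*} [Field K] [Field F] [Algebra K F] {x y : F}
    (h : IsFF1 K F x) [Algebra.IsSeparable K⟮y⟯ F] :
    ∃ S₀ : Finset (Place K F), ∀ Q ∉ S₀, 0 ≤ Q.ord y ∧
      ∀ γ : K, 0 < Q.ord (y - algebraMap K F γ) → Q.ord (y - algebraMap K F γ) = 1 := by
  classical
  have := h.hasPrincipalDivisors
  obtain ⟨W, -, -, hge, -⟩ := Res.exists_divisor_D_of_isSeparable h y
  refine ⟨W.support ∪ (OneStep.pdiv K y).support, fun Q hQ => ?_⟩
  rw [Finset.mem_union, not_or] at hQ
  obtain ⟨hQ1, hQ2⟩ := hQ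
  have hW : W Q = 0 := by
    rwa [Finsupp.mem_support_iff, not_not] at hQ1
  have hy0 : Q.ord y = 0 := by
    rw [Finsupp.mem_support_iff, not_not, OneStep.pdiv_apply] at hQ2
    exact hQ2
  refine ⟨by omega, fun γ hγ => ?_⟩
  have := hge γ Q
  omega

/-- A natural number prime to `ℓ` is nonzero in the residue field of a valuation subring of `ℚ̄`
over `ℓ`. -/
theorem natCast_residue_ne_zero (A : ValuationSubring (AlgebraicClosure ℚ)) {ℓ : ℕ}
    (hℓ : ℓ.Prime) (hA : A.LiesOverPrime ℓ) (m : ℕ) (hm : ¬ ℓ ∣ m) :
    (m : IsLocalRing.ResidueField A) ≠ 0 := by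
  intro h0
  -- `ℓ` is a nonunit of `A`
  have hℓA : (ℓ : AlgebraicClosure ℚ) ∈ A.nonunits := hA
  have hℓ0 : IsLocalRing.residue A (ℓ : A) = 0 := by
    rw [IsLocalRing.residue_eq_zero_iff]
    obtain ⟨ha, hmem⟩ := ValuationSubring.mem_nonunits_iff_exists_mem_maximalIdeal.mp hℓA
    have h3 : (⟨(ℓ : AlgebraicClosure ℚ), ha⟩ : A) = (ℓ : A) := by
      apply Subtype.ext
      push_cast
      rfl
    rw [← h3]
    exact hmem
  have hm0 : IsLocalRing.residue A (m : A) = 0 := by
    rw [map_natCast]; exact h0
  -- Bezout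
  have hcop : Nat.Coprime ℓ m := (Nat.Prime.coprime_iff_not_dvd hℓ).mpr hm
  have hbez : (ℓ : ℤ) * Nat.gcdA ℓ m + (m : ℤ) * Nat.gcdB ℓ m = 1 := by
    have := Nat.gcd_eq_gcd_ab ℓ m
    rw [hcop] at this
    exact_mod_cast this.symm
  have h1 : IsLocalRing.residue A (((ℓ : ℤ) * Nat.gcdA ℓ m + (m : ℤ) * Nat.gcdB ℓ m : ℤ) : A)
      = 1 := by
    rw [hbez]; simp
  have h2 : IsLocalRing.residue A (((ℓ : ℤ) * Nat.gcdA ℓ m + (m : ℤ) * Nat.gcdB ℓ m : ℤ) : A)
      = 0 := by
    push_cast
    rw [map_add, map_mul, map_mul, hℓ0, hm0, zero_mul, zero_mul, add_zero]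
  exact one_ne_zero (h1.symm.trans h2)

set_option synthInstance.maxHeartbeats 400000 in
set_option maxHeartbeats 1000000 in
/-- **R1, generic in the base function.**  For ANY base function `x` (a unit of `O_w`; `J(q^N)`
for `ℓ ≥ 5`, a Hauptmodul of level `2` or `3` composed with `q ↦ q^(N/2)`, `q ↦ q^(N/3)` for
`ℓ = 3, 2`) such that both function fields are `IsFF1` with base functions `x`, `red x`, the
reduced covering is separable, the pole degree does not drop, both charts of `x` have good
reduction (`hT3`, `hT3'`) and the finite chart ring is finitely generated over `A[x]` (`hT4`):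
reduction of divisor classes along any place reduction is injective on prime-to-`ℓ` torsion. -/
theorem redTorsionInjective_of_chart (N ℓ : ℕ) [NeZero N] (hℓ : ℓ.Prime) (hℓN : ¬ ℓ ∣ N)
    (A : ValuationSubring (AlgebraicClosure ℚ)) (hA : A.LiesOverPrime ℓ)
    (x : (Ow A (IsLocalRing.residue A) N (natCast_residue_ne_zero A hℓ hA N hℓN))ˣ)
    (hF : IsFF1 (AlgebraicClosure ℚ) ↥(modularFunctionFieldBar N)
      ((x : Ow A (IsLocalRing.residue A) N (natCast_residue_ne_zero A hℓ hA N hℓN)) :
        ↥(modularFunctionFieldBar N)))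
    (hFt : IsFF1 (IsLocalRing.ResidueField A)
      ↥(modularFunctionFieldFullC (IsLocalRing.ResidueField A) N)
      (redF A (IsLocalRing.residue A) N (OneStepGlue.residue_eq_zero_of_not_isUnit A)
        (natCast_residue_ne_zero A hℓ hA N hℓN) x))
    (hsep : Algebra.IsSeparable
      (IntermediateField.adjoin (IsLocalRing.ResidueField A)
        {redF A (IsLocalRing.residue A) N (OneStepGlue.residue_eq_zero_of_not_isUnit A)
          (natCast_residue_ne_zero A hℓ hA N hℓN) x})
      ↥(modularFunctionFieldFullC (IsLocalRing.ResidueField A) N))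
    (hdeg : Divisor.degree hF.poleDiv ≤ Divisor.degree hFt.poleDiv)
    (hT3 : ∀ s : ↥(modularFunctionFieldFullC (IsLocalRing.ResidueField A) N),
        (∀ Q : Place (IsLocalRing.ResidueField A)
            ↥(modularFunctionFieldFullC (IsLocalRing.ResidueField A) N),
          0 ≤ Q.ord (redF A (IsLocalRing.residue A) N
            (OneStepGlue.residue_eq_zero_of_not_isUnit A)
            (natCast_residue_ne_zero A hℓ hA N hℓN) x) → 0 ≤ Q.ord s) →
        ∃ y : Ow A (IsLocalRing.residue A) N (natCast_residue_ne_zero A hℓ hA N hℓN),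
          redF A (IsLocalRing.residue A) N (OneStepGlue.residue_eq_zero_of_not_isUnit A)
            (natCast_residue_ne_zero A hℓ hA N hℓN) y = s ∧
          ∀ P : Place (AlgebraicClosure ℚ) ↥(modularFunctionFieldBar N),
            0 ≤ P.ord ((x : Ow A (IsLocalRing.residue A) N
              (natCast_residue_ne_zero A hℓ hA N hℓN)) : ↥(modularFunctionFieldBar N)) →
              0 ≤ P.ord (y : ↥(modularFunctionFieldBar N)))
    (hT3' : ∀ s : ↥(modularFunctionFieldFullC (IsLocalRing.ResidueField A) N),
        (∀ Q : Place (IsLocalRing.ResidueField A)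
            ↥(modularFunctionFieldFullC (IsLocalRing.ResidueField A) N),
          Q.ord (redF A (IsLocalRing.residue A) N
            (OneStepGlue.residue_eq_zero_of_not_isUnit A)
            (natCast_residue_ne_zero A hℓ hA N hℓN) x) ≤ 0 → 0 ≤ Q.ord s) →
        ∃ y : Ow A (IsLocalRing.residue A) N (natCast_residue_ne_zero A hℓ hA N hℓN),
          redF A (IsLocalRing.residue A) N (OneStepGlue.residue_eq_zero_of_not_isUnit A)
            (natCast_residue_ne_zero A hℓ hA N hℓN) y = s ∧
          ∀ P : Place (AlgebraicClosure ℚ) ↥(modularFunctionFieldBar N),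
            P.ord ((x : Ow A (IsLocalRing.residue A) N
              (natCast_residue_ne_zero A hℓ hA N hℓN)) : ↥(modularFunctionFieldBar N)) ≤ 0 →
              0 ≤ P.ord (y : ↥(modularFunctionFieldBar N)))
    (hT4 : ∃ (n : ℕ) (g : Fin n → ↥(modularFunctionFieldBar N)),
        (∀ i, g i ∈ Ow A (IsLocalRing.residue A) N (natCast_residue_ne_zero A hℓ hA N hℓN)) ∧
        (∀ i, ∀ P : Place (AlgebraicClosure ℚ) ↥(modularFunctionFieldBar N),
          0 ≤ P.ord ((x : Ow A (IsLocalRing.residue A) N
            (natCast_residue_ne_zero A hℓ hA N hℓN)) : ↥(modularFunctionFieldBar N)) →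
            0 ≤ P.ord (g i)) ∧
        ∀ y : Ow A (IsLocalRing.residue A) N (natCast_residue_ne_zero A hℓ hA N hℓN),
          (∀ P : Place (AlgebraicClosure ℚ) ↥(modularFunctionFieldBar N),
            0 ≤ P.ord ((x : Ow A (IsLocalRing.residue A) N
              (natCast_residue_ne_zero A hℓ hA N hℓN)) : ↥(modularFunctionFieldBar N)) →
              0 ≤ P.ord (y : ↥(modularFunctionFieldBar N))) →
          ∃ p : Fin n → Polynomial A,
            (y : ↥(modularFunctionFieldBar N)) =
              ∑ i, Polynomial.aeval ((x : Ow A (IsLocalRing.residue A) N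
                (natCast_residue_ne_zero A hℓ hA N hℓN)) : ↥(modularFunctionFieldBar N))
                ((p i).map A.subtype) * g i) :
    RedTorsionInjective N ℓ A := by
  have : IsAlgClosed (IsLocalRing.ResidueField A) := CharP.isAlgClosed_residueField A
  have : Infinite (IsLocalRing.ResidueField A) := IsAlgClosed.instInfinite
  have hNk : (N : IsLocalRing.ResidueField A) ≠ 0 := natCast_residue_ne_zero A hℓ hA N hℓN
  have hπ := OneStepGlue.residue_eq_zero_of_not_isUnit A
  have hℓ' : ∀ m : ℕ, ¬ ℓ ∣ m → (m : IsLocalRing.ResidueField A) ≠ 0 :=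
    fun m hm => natCast_residue_ne_zero A hℓ hA m hm
  have hxinv : ((x : Ow A (IsLocalRing.residue A) N hNk) : ↥(modularFunctionFieldBar N))⁻¹ ∈
      (Ow A (IsLocalRing.residue A) N hNk).toSubring := by
    have h1 : ((x : Ow A (IsLocalRing.residue A) N hNk) : ↥(modularFunctionFieldBar N)) *
        (((x⁻¹ : (Ow A (IsLocalRing.residue A) N hNk)ˣ) : Ow A (IsLocalRing.residue A) N hNk) :
          ↥(modularFunctionFieldBar N)) = 1 :=
      congrArg Subtype.val (Units.mul_inv x)
    rw [inv_eq_of_mul_eq_one_right h1]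
    exact ((x⁻¹ : (Ow A (IsLocalRing.residue A) N hNk)ˣ) :
      Ow A (IsLocalRing.residue A) N hNk).2
  have hgenus : genusFF (AlgebraicClosure ℚ) ↥(modularFunctionFieldBar N) ≤
      genusFF (IsLocalRing.ResidueField A)
        ↥(modularFunctionFieldFullC (IsLocalRing.ResidueField A) N) :=
    GenusLe.genusFF_le hF hFt A (IsLocalRing.residue A) hπ
      (Ow A (IsLocalRing.residue A) N hNk).toSubring
      (redF A (IsLocalRing.residue A) N hπ hNk)
      (fun a => (algebraMap_mem_Ow_iff hπ hNk (a : AlgebraicClosure ℚ)).mpr a.2)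
      (fun a => redF_algebraMap hπ hNk a)
      (x : Ow A (IsLocalRing.residue A) N hNk).2 hxinv rfl hdeg
      (InstGenus.exists_div_of_redF_eq_zero hπ hNk) hT3 hT3' hT4
  obtain ⟨S₀, hS₀⟩ := exists_unram_set
    (y := redF A (IsLocalRing.residue A) N hπ hNk x) hFt
  exact OneStepGlue.redTorsionInjective_of_inputs' N ℓ A hNk hℓ' x hF hFt hgenus hdeg S₀ hS₀

set_option synthInstance.maxHeartbeats 400000 in
set_option maxHeartbeats 1000000 in
/-- **R1, core form.**  Reduction of divisor classes of `X₀(N)` along any place reduction is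
injective on torsion of order prime to `ℓ`, given good reduction of the two charts of
`x = J(q^N)` (`hT3`, `hT3'`) and a finite set of places of `F~` outside of which `x̄` is regular
and unramified (`hS`). -/
theorem redTorsionInjective_of_lift_of_set (N ℓ : ℕ) [NeZero N] (hℓ : ℓ.Prime) (hℓN : ¬ ℓ ∣ N)
    (A : ValuationSubring (AlgebraicClosure ℚ)) (hA : A.LiesOverPrime ℓ)
    (hT3 : ∀ s : ↥(modularFunctionFieldFullC (IsLocalRing.ResidueField A) N),
        (∀ Q : Place (IsLocalRing.ResidueField A)
            ↥(modularFunctionFieldFullC (IsLocalRing.ResidueField A) N),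
          0 ≤ Q.ord (xk (IsLocalRing.ResidueField A) N) → 0 ≤ Q.ord s) →
        ∃ y : Ow A (IsLocalRing.residue A) N (natCast_residue_ne_zero A hℓ hA N hℓN),
          redF A (IsLocalRing.residue A) N (OneStepGlue.residue_eq_zero_of_not_isUnit A)
            (natCast_residue_ne_zero A hℓ hA N hℓN) y = s ∧
          ∀ P : Place (AlgebraicClosure ℚ)
              ↥(laurentBaseChange (AlgebraicClosure ℚ) (modularFunctionFieldFull N)),
            0 ≤ P.ord (xL (AlgebraicClosure ℚ) N) →
              0 ≤ P.ord (y : ↥(laurentBaseChange (AlgebraicClosure ℚ)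
                (modularFunctionFieldFull N))))
    (hT3' : ∀ s : ↥(modularFunctionFieldFullC (IsLocalRing.ResidueField A) N),
        (∀ Q : Place (IsLocalRing.ResidueField A)
            ↥(modularFunctionFieldFullC (IsLocalRing.ResidueField A) N),
          Q.ord (xk (IsLocalRing.ResidueField A) N) ≤ 0 → 0 ≤ Q.ord s) →
        ∃ y : Ow A (IsLocalRing.residue A) N (natCast_residue_ne_zero A hℓ hA N hℓN),
          redF A (IsLocalRing.residue A) N (OneStepGlue.residue_eq_zero_of_not_isUnit A)
            (natCast_residue_ne_zero A hℓ hA N hℓN) y = s ∧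
          ∀ P : Place (AlgebraicClosure ℚ)
              ↥(laurentBaseChange (AlgebraicClosure ℚ) (modularFunctionFieldFull N)),
            P.ord (xL (AlgebraicClosure ℚ) N) ≤ 0 →
              0 ≤ P.ord (y : ↥(laurentBaseChange (AlgebraicClosure ℚ)
                (modularFunctionFieldFull N))))
    (hS : ∃ S₀ : Finset (Place (IsLocalRing.ResidueField A)
          ↥(modularFunctionFieldFullC (IsLocalRing.ResidueField A) N)),
        ∀ Q ∉ S₀, 0 ≤ Q.ord (xk (IsLocalRing.ResidueField A) N) ∧
          ∀ γ : IsLocalRing.ResidueField A,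
            0 < Q.ord (xk (IsLocalRing.ResidueField A) N - algebraMap _ _ γ) →
              Q.ord (xk (IsLocalRing.ResidueField A) N - algebraMap _ _ γ) = 1) :
    RedTorsionInjective N ℓ A := by
  have : IsAlgClosed (IsLocalRing.ResidueField A) := CharP.isAlgClosed_residueField A
  have : Infinite (IsLocalRing.ResidueField A) := IsAlgClosed.instInfinite
  have hNk : (N : IsLocalRing.ResidueField A) ≠ 0 := natCast_residue_ne_zero A hℓ hA N hℓN
  have hπ := OneStepGlue.residue_eq_zero_of_not_isUnit A
  have hsurj : Function.Surjective (IsLocalRing.residue A) := IsLocalRing.residue_surjective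
  -- the base function as a unit of `O_w`
  let x0 : Ow A (IsLocalRing.residue A) N hNk :=
    ⟨xL (AlgebraicClosure ℚ) N, InstGenus.xL_mem_Ow hNk⟩
  let x0i : Ow A (IsLocalRing.residue A) N hNk :=
    ⟨(xL (AlgebraicClosure ℚ) N)⁻¹, InstGenus.xL_inv_mem_Ow hπ hNk⟩
  have hx0 : xL (AlgebraicClosure ℚ) N ≠ 0 := by
    intro h0
    exact InstGenus.transcendental_xL (L := AlgebraicClosure ℚ) N (h0 ▸ isAlgebraic_zero)
  let x : (Ow A (IsLocalRing.residue A) N hNk)ˣ :=
    ⟨x0, x0i, Subtype.ext (mul_inv_cancel₀ hx0), Subtype.ext (inv_mul_cancel₀ hx0)⟩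
  have hF : IsFF1 (AlgebraicClosure ℚ) ↥(modularFunctionFieldBar N)
      ((x : Ow A (IsLocalRing.residue A) N hNk) : ↥(modularFunctionFieldBar N)) :=
    InstGenus.isFF1_xL (A := A) (π := IsLocalRing.residue A) hπ hsurj hNk
  have hredx : redF A (IsLocalRing.residue A) N hπ hNk x = xk (IsLocalRing.ResidueField A) N :=
    InstGenus.redF_xL hπ hNk
  have hFt0 : IsFF1 (IsLocalRing.ResidueField A)
      ↥(modularFunctionFieldFullC (IsLocalRing.ResidueField A) N)
      (xk (IsLocalRing.ResidueField A) N) :=
    InstGenus.isFF1_xk (A := A) (π := IsLocalRing.residue A) hπ hsurj hNk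
  have hgenus := InstGenus.genusFF_le_modular (A := A) (π := IsLocalRing.residue A) hπ hsurj hNk
    hT3 hT3' (OrthInst.hT4 hπ hsurj hNk)
  have hdeg := InstGenus.degree_poleDiv_le (A := A) (π := IsLocalRing.residue A) hπ hsurj hNk
  obtain ⟨S₀, hS₀⟩ := hS
  have hℓ' : ∀ m : ℕ, ¬ ℓ ∣ m → (m : IsLocalRing.ResidueField A) ≠ 0 :=
    fun m hm => natCast_residue_ne_zero A hℓ hA m hm
  have key : ∀ (y : ↥(modularFunctionFieldFullC (IsLocalRing.ResidueField A) N))
      (_ : redF A (IsLocalRing.residue A) N hπ hNk x = y)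
      (hFt : IsFF1 (IsLocalRing.ResidueField A)
        ↥(modularFunctionFieldFullC (IsLocalRing.ResidueField A) N) y)
      (_ : Divisor.degree hF.poleDiv ≤ Divisor.degree hFt.poleDiv)
      (_ : ∀ Q ∉ S₀, 0 ≤ Q.ord y ∧
        ∀ γ : IsLocalRing.ResidueField A, 0 < Q.ord (y - algebraMap _ _ γ) →
          Q.ord (y - algebraMap _ _ γ) = 1), RedTorsionInjective N ℓ A := by
    intro y hy
    subst hy
    intro hFt hdeg' hS₀'
    exact OneStepGlue.redTorsionInjective_of_inputs' N ℓ A hNk hℓ' x hF hFt hgenus hdeg' S₀ hS₀'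
  exact key _ hredx hFt0 hdeg hS₀

set_option synthInstance.maxHeartbeats 400000 in
set_option maxHeartbeats 1000000 in
/-- **R1 modulo DISC.**  `RedTorsionInjective N ℓ A` from good reduction of the two charts of
`x = J(q^N)` (`hT3`, `hT3'`) and unramifiedness of the reduced covering outside finitely many
values (`hT2`). -/
theorem redTorsionInjective_of_disc (N ℓ : ℕ) [NeZero N] (hℓ : ℓ.Prime) (hℓN : ¬ ℓ ∣ N)
    (A : ValuationSubring (AlgebraicClosure ℚ)) (hA : A.LiesOverPrime ℓ)
    (hT3 : ∀ s : ↥(modularFunctionFieldFullC (IsLocalRing.ResidueField A) N),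
        (∀ Q : Place (IsLocalRing.ResidueField A)
            ↥(modularFunctionFieldFullC (IsLocalRing.ResidueField A) N),
          0 ≤ Q.ord (xk (IsLocalRing.ResidueField A) N) → 0 ≤ Q.ord s) →
        ∃ y : Ow A (IsLocalRing.residue A) N (natCast_residue_ne_zero A hℓ hA N hℓN),
          redF A (IsLocalRing.residue A) N (OneStepGlue.residue_eq_zero_of_not_isUnit A)
            (natCast_residue_ne_zero A hℓ hA N hℓN) y = s ∧
          ∀ P : Place (AlgebraicClosure ℚ)
              ↥(laurentBaseChange (AlgebraicClosure ℚ) (modularFunctionFieldFull N)),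
            0 ≤ P.ord (xL (AlgebraicClosure ℚ) N) →
              0 ≤ P.ord (y : ↥(laurentBaseChange (AlgebraicClosure ℚ)
                (modularFunctionFieldFull N))))
    (hT3' : ∀ s : ↥(modularFunctionFieldFullC (IsLocalRing.ResidueField A) N),
        (∀ Q : Place (IsLocalRing.ResidueField A)
            ↥(modularFunctionFieldFullC (IsLocalRing.ResidueField A) N),
          Q.ord (xk (IsLocalRing.ResidueField A) N) ≤ 0 → 0 ≤ Q.ord s) →
        ∃ y : Ow A (IsLocalRing.residue A) N (natCast_residue_ne_zero A hℓ hA N hℓN),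
          redF A (IsLocalRing.residue A) N (OneStepGlue.residue_eq_zero_of_not_isUnit A)
            (natCast_residue_ne_zero A hℓ hA N hℓN) y = s ∧
          ∀ P : Place (AlgebraicClosure ℚ)
              ↥(laurentBaseChange (AlgebraicClosure ℚ) (modularFunctionFieldFull N)),
            P.ord (xL (AlgebraicClosure ℚ) N) ≤ 0 →
              0 ≤ P.ord (y : ↥(laurentBaseChange (AlgebraicClosure ℚ)
                (modularFunctionFieldFull N))))
    (hT2 : ∃ bad : Finset (IsLocalRing.ResidueField A),
        ∀ γ : IsLocalRing.ResidueField A, γ ∉ bad →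
          ∀ Q : Place (IsLocalRing.ResidueField A)
              ↥(modularFunctionFieldFullC (IsLocalRing.ResidueField A) N),
            0 < Q.ord (xk (IsLocalRing.ResidueField A) N - algebraMap _ _ γ) →
              Q.ord (xk (IsLocalRing.ResidueField A) N - algebraMap _ _ γ) = 1) :
    RedTorsionInjective N ℓ A := by
  have : IsAlgClosed (IsLocalRing.ResidueField A) := CharP.isAlgClosed_residueField A
  have hNk : (N : IsLocalRing.ResidueField A) ≠ 0 := natCast_residue_ne_zero A hℓ hA N hℓN
  have hFt0 : IsFF1 (IsLocalRing.ResidueField A)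
      ↥(modularFunctionFieldFullC (IsLocalRing.ResidueField A) N)
      (xk (IsLocalRing.ResidueField A) N) :=
    InstGenus.isFF1_xk (A := A) (π := IsLocalRing.residue A)
      (OneStepGlue.residue_eq_zero_of_not_isUnit A) IsLocalRing.residue_surjective hNk
  obtain ⟨bad, hbad⟩ := hT2
  exact redTorsionInjective_of_lift_of_set N ℓ hℓ hℓN A hA hT3 hT3'
    (OneStepGlue.exists_bad_set hFt0 bad hbad)

set_option synthInstance.maxHeartbeats 400000 in
set_option maxHeartbeats 1000000 in
/-- **R1 modulo good reduction of the two charts.**  `RedTorsionInjective N ℓ A` from `hT3`,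
`hT3'` alone: `F~ / k(x̄)` is separable, hence unramified outside a finite set of places. -/
theorem redTorsionInjective_of_lift (N ℓ : ℕ) [NeZero N] (hℓ : ℓ.Prime) (hℓN : ¬ ℓ ∣ N)
    (A : ValuationSubring (AlgebraicClosure ℚ)) (hA : A.LiesOverPrime ℓ)
    (hT3 : ∀ s : ↥(modularFunctionFieldFullC (IsLocalRing.ResidueField A) N),
        (∀ Q : Place (IsLocalRing.ResidueField A)
            ↥(modularFunctionFieldFullC (IsLocalRing.ResidueField A) N),
          0 ≤ Q.ord (xk (IsLocalRing.ResidueField A) N) → 0 ≤ Q.ord s) →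
        ∃ y : Ow A (IsLocalRing.residue A) N (natCast_residue_ne_zero A hℓ hA N hℓN),
          redF A (IsLocalRing.residue A) N (OneStepGlue.residue_eq_zero_of_not_isUnit A)
            (natCast_residue_ne_zero A hℓ hA N hℓN) y = s ∧
          ∀ P : Place (AlgebraicClosure ℚ)
              ↥(laurentBaseChange (AlgebraicClosure ℚ) (modularFunctionFieldFull N)),
            0 ≤ P.ord (xL (AlgebraicClosure ℚ) N) →
              0 ≤ P.ord (y : ↥(laurentBaseChange (AlgebraicClosure ℚ)
                (modularFunctionFieldFull N))))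
    (hT3' : ∀ s : ↥(modularFunctionFieldFullC (IsLocalRing.ResidueField A) N),
        (∀ Q : Place (IsLocalRing.ResidueField A)
            ↥(modularFunctionFieldFullC (IsLocalRing.ResidueField A) N),
          Q.ord (xk (IsLocalRing.ResidueField A) N) ≤ 0 → 0 ≤ Q.ord s) →
        ∃ y : Ow A (IsLocalRing.residue A) N (natCast_residue_ne_zero A hℓ hA N hℓN),
          redF A (IsLocalRing.residue A) N (OneStepGlue.residue_eq_zero_of_not_isUnit A)
            (natCast_residue_ne_zero A hℓ hA N hℓN) y = s ∧
          ∀ P : Place (AlgebraicClosure ℚ)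
              ↥(laurentBaseChange (AlgebraicClosure ℚ) (modularFunctionFieldFull N)),
            P.ord (xL (AlgebraicClosure ℚ) N) ≤ 0 →
              0 ≤ P.ord (y : ↥(laurentBaseChange (AlgebraicClosure ℚ)
                (modularFunctionFieldFull N)))) :
    RedTorsionInjective N ℓ A := by
  have : IsAlgClosed (IsLocalRing.ResidueField A) := CharP.isAlgClosed_residueField A
  have hNk : (N : IsLocalRing.ResidueField A) ≠ 0 := natCast_residue_ne_zero A hℓ hA N hℓN
  have hFt0 : IsFF1 (IsLocalRing.ResidueField A)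
      ↥(modularFunctionFieldFullC (IsLocalRing.ResidueField A) N)
      (xk (IsLocalRing.ResidueField A) N) :=
    InstGenus.isFF1_xk (A := A) (π := IsLocalRing.residue A)
      (OneStepGlue.residue_eq_zero_of_not_isUnit A) IsLocalRing.residue_surjective hNk
  have := ModL.isSeparable_xk (IsLocalRing.ResidueField A) N hNk
  exact redTorsionInjective_of_lift_of_set N ℓ hℓ hℓN A hA hT3 hT3'
    (exists_unram_set (y := xk (IsLocalRing.ResidueField A) N) hFt0)

end

end Fermat.Agent.ESJ
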