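/-
ESJ / RED — (O2) of helper18's #1594 (helper29): **R1 for an arbitrary base function
`B : BaseFn.Data A π N`, modulo good reduction of the two charts of `B.x`.**

* `isSeparable_xt B hπ hNk` : SEP for `B` — `F~ / k(x̄)` is separable, `x̄ = B.xt hπ hNk`
  (from `ModL.isSeparable_of_le` and `B.hJk : J̄(q^N) ∈ k(x̄)`), for every `N` invertible in `k`.
* `redTorsionInjective_of_data N ℓ hℓ hℓN A hA B hT3 hT3'` : `RedTorsionInjective N ℓ A` from the
  two lifting statements `hT3`, `hT3'` for `B.x` / `B.xt` (place form, decision D8) ALONE: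
  `IsFF1` on both sides, the degree inequality (`InstGenusX`), SEP and T4 (`OrthInstX.hT4`) are
  discharged here.  Instances: `B := Data.ofJ A π N` (`ℓ ≥ 5`), `BaseFn.ofHaupt2 A π M m hM h2`
  (`ℓ = 3`), `BaseFn.ofHaupt3 A π M m hM h3` (`ℓ = 2`).
-/
import Mathlib
import Fermat.Agent.ESJ.Red.R1
import Fermat.Agent.Lib.Red.InstGenusX
import Fermat.Agent.Lib.Red.OrthInstX

set_option autoImplicit false

namespace Fermat.Agent.ESJ

open ModularCurve AlgebraicCurve Fermat.Agent.Lib.Red Fermat.Agent.Lib.FF

noncomputable section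

/-- **SEP for an arbitrary base function.**  If `N` is invertible in `k`, the mod-`ℓ` modular
function field of level `N` is separable over `k(x̄)` for the reduction `x̄` of any base
function (`J̄(q^N) ∈ k(x̄)` is part of the data). -/
theorem isSeparable_xt {L : Type*} [Field L] [Algebra ℚ L] {A : ValuationSubring L} {k : Type}
    [Field k] {π : A →+* k} {N : ℕ} [NeZero N] (B : BaseFn.Data A π N)
    (hπ : ∀ a : A, ¬ IsUnit a → π a = 0) (hNk : (N : k) ≠ 0) :
    Algebra.IsSeparable (IntermediateField.adjoin k {B.xt hπ hNk})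
      ↥(modularFunctionFieldFullC k N) := by
  refine ModL.isSeparable_of_le k N hNk _ ?_
  rw [IntermediateField.adjoin_simple_le_iff]
  exact (BaseFn.mem_adjoin_xt_iff hπ hNk B.X B.hX _).2 B.hJk

set_option synthInstance.maxHeartbeats 400000 in
set_option maxHeartbeats 1000000 in
/-- **R1 for an arbitrary base function, modulo good reduction of its two charts.** -/
theorem redTorsionInjective_of_data (N ℓ : ℕ) [NeZero N] (hℓ : ℓ.Prime) (hℓN : ¬ ℓ ∣ N)
    (A : ValuationSubring (AlgebraicClosure ℚ)) (hA : A.LiesOverPrime ℓ)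
    (B : BaseFn.Data A (IsLocalRing.residue A) N)
    (hT3 : ∀ s : ↥(modularFunctionFieldFullC (IsLocalRing.ResidueField A) N),
        (∀ Q : Place (IsLocalRing.ResidueField A)
            ↥(modularFunctionFieldFullC (IsLocalRing.ResidueField A) N),
          0 ≤ Q.ord (B.xt (OneStepGlue.residue_eq_zero_of_not_isUnit A)
            (natCast_residue_ne_zero A hℓ hA N hℓN)) → 0 ≤ Q.ord s) →
        ∃ y : Ow A (IsLocalRing.residue A) N (natCast_residue_ne_zero A hℓ hA N hℓN),
          redF A (IsLocalRing.residue A) N (OneStepGlue.residue_eq_zero_of_not_isUnit A)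
            (natCast_residue_ne_zero A hℓ hA N hℓN) y = s ∧
          ∀ P : Place (AlgebraicClosure ℚ)
              ↥(laurentBaseChange (AlgebraicClosure ℚ) (modularFunctionFieldFull N)),
            0 ≤ P.ord B.x →
              0 ≤ P.ord (y : ↥(laurentBaseChange (AlgebraicClosure ℚ)
                (modularFunctionFieldFull N))))
    (hT3' : ∀ s : ↥(modularFunctionFieldFullC (IsLocalRing.ResidueField A) N),
        (∀ Q : Place (IsLocalRing.ResidueField A)
            ↥(modularFunctionFieldFullC (IsLocalRing.ResidueField A) N),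
          Q.ord (B.xt (OneStepGlue.residue_eq_zero_of_not_isUnit A)
            (natCast_residue_ne_zero A hℓ hA N hℓN)) ≤ 0 → 0 ≤ Q.ord s) →
        ∃ y : Ow A (IsLocalRing.residue A) N (natCast_residue_ne_zero A hℓ hA N hℓN),
          redF A (IsLocalRing.residue A) N (OneStepGlue.residue_eq_zero_of_not_isUnit A)
            (natCast_residue_ne_zero A hℓ hA N hℓN) y = s ∧
          ∀ P : Place (AlgebraicClosure ℚ)
              ↥(laurentBaseChange (AlgebraicClosure ℚ) (modularFunctionFieldFull N)),
            P.ord B.x ≤ 0 →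
              0 ≤ P.ord (y : ↥(laurentBaseChange (AlgebraicClosure ℚ)
                (modularFunctionFieldFull N)))) :
    RedTorsionInjective N ℓ A := by
  have : IsAlgClosed (IsLocalRing.ResidueField A) := CharP.isAlgClosed_residueField A
  have hNk : (N : IsLocalRing.ResidueField A) ≠ 0 := natCast_residue_ne_zero A hℓ hA N hℓN
  have hπ := OneStepGlue.residue_eq_zero_of_not_isUnit A
  have hsurj : Function.Surjective (IsLocalRing.residue A) := IsLocalRing.residue_surjective
  exact redTorsionInjective_of_chart N ℓ hℓ hℓN A hA (B.xUnit hπ hNk)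
    (InstGenusX.isFF1_x B hπ hsurj hNk) (InstGenusX.isFF1_xt B hπ hsurj hNk)
    (isSeparable_xt B hπ hNk) (InstGenusX.degree_poleDiv_le B hπ hsurj hNk) hT3 hT3'
    (OrthInstX.hT4 B hπ hsurj hNk)

end

end Fermat.Agent.ESJ
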