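import Mathlib
import Fermat.Agent.ESJ.Interfaces
import Fermat.Agent.Lib.Red.KummerInst
import Fermat.Agent.Lib.Red.RankOne
import Fermat.Agent.Lib.FF.CharP.ModLInst

/-!
# ESJ / RED — R1 (`RedTorsionInjective`) by the KUMMER route, from the genus inequality alone

`redTorsionInjective_of_genus_le`: for `ℓ ∤ N` and a valuation subring `A` of `ℚ̄` over `ℓ`,

  `genusFF ℚ̄ (ℚ̄·F_N) ≤ genusFF k F~`   ⟹   `RedTorsionInjective N ℓ A`

(`k` the residue field of `A`, `F~` the mod-`ℓ` modular function field).  The genus inequality is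
the only geometric input: it is the conclusion of `InstGenus.genusFF_le_modular` (route G-B) and
of the differential route G-A.

Also exported, for the other endgames: `eq_zero_of_torsion_of_prime` (reduction of the order to
primes) and `redTorsionInjective_of_prime` (the `Pic0` wrapper: R1 from the divisor statement
"`p • D` and `r_* D` principal ⟹ `D` principal" for primes `p ≠ ℓ`).
-/

set_option autoImplicit false

namespace Fermat.Agent.ESJ.Red

open ModularCurve AlgebraicCurve Fermat.Agent.Lib.Red

/-- Injectivity on `m`-torsion (`ℓ ∤ m`) follows from injectivity on `p`-torsion for all primes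
`p ≠ ℓ`. -/
theorem eq_zero_of_torsion_of_prime {G H : Type*} [AddCommGroup G] [AddCommGroup H] (f : G →+ H)
    (ℓ : ℕ)
    (hprime : ∀ p : ℕ, p.Prime → p ≠ ℓ → ∀ z : G, p • z = 0 → f z = 0 → z = 0)
    (m : ℕ) (hm : ¬ ℓ ∣ m) (z : G) (hmz : m • z = 0) (hz : f z = 0) : z = 0 := by
  induction m using Nat.strong_induction_on generalizing z with
  | _ m ih =>
    by_cases h1 : m = 1
    · rw [h1, one_smul] at hmz
      exact hmz
    · have hm0 : m ≠ 0 := by
        rintro rfl
        exact hm (dvd_zero ℓ)
      have hp : (m.minFac).Prime := Nat.minFac_prime h1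
      obtain ⟨m', hm'⟩ := Nat.minFac_dvd m
      have hpl : m.minFac ≠ ℓ := by
        intro h
        exact hm (h ▸ Nat.minFac_dvd m)
      have hm'pos : 0 < m' := by
        rcases Nat.eq_zero_or_pos m' with h | h
        · rw [h, mul_zero] at hm'
          exact absurd hm' hm0
        · exact h
      have hlt : m' < m := by
        calc m' = 1 * m' := (one_mul _).symm
          _ < m.minFac * m' := Nat.mul_lt_mul_of_pos_right hp.one_lt hm'pos
          _ = m := hm'.symm
      have hm'l : ¬ ℓ ∣ m' := fun h => hm (hm' ▸ Dvd.dvd.mul_left h _)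
      have hz' : m' • z = 0 := by
        apply hprime m.minFac hp hpl
        · rw [smul_smul, ← hm']
          exact hmz
        · rw [map_nsmul, hz, smul_zero]
      exact ih m' hlt hm'l z hz' hz

set_option synthInstance.maxHeartbeats 400000 in
set_option maxHeartbeats 1000000 in
/-- **The `Pic0` wrapper**: `RedTorsionInjective` from the divisor statement for primes. -/
theorem redTorsionInjective_of_prime (N ℓ : ℕ) [NeZero N]
    (A : ValuationSubring (AlgebraicClosure ℚ))
    (H : ∀ (r : Place (AlgebraicClosure ℚ) (modularFunctionFieldBar N) →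
        Place (IsLocalRing.ResidueField A)
          (modularFunctionFieldFullC (IsLocalRing.ResidueField A) N)),
      IsPlaceReductionModL A N r → ∀ p : ℕ, p.Prime → p ≠ ℓ →
      ∀ D : Divisor (AlgebraicClosure ℚ) (modularFunctionFieldBar N), Divisor.degree D = 0 →
        Divisor.IsPrincipal (p • D) → Divisor.IsPrincipal (Finsupp.mapDomain r D) →
        Divisor.IsPrincipal D) :
    Fermat.Agent.ESJ.RedTorsionInjective N ℓ A := by
  intro r hr hgen m hm z hmz hz
  refine eq_zero_of_torsion_of_prime (reductionPic0Along r hr hgen) ℓ ?_ m hm z hmz hz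
  intro p hp hpl z hpz hz
  obtain ⟨D, rfl⟩ := Pic0.mk_surjective z
  have hpD : Divisor.IsPrincipal (p • (D : Divisor (AlgebraicClosure ℚ)
      (modularFunctionFieldBar N))) := by
    have h1 : Pic0.mk (p • D) = 0 := hpz
    have h2 := (QuotientAddGroup.eq_zero_iff _).mp h1
    exact h2
  have hrD : Divisor.IsPrincipal (Finsupp.mapDomain r (D : Divisor (AlgebraicClosure ℚ)
      (modularFunctionFieldBar N))) := by
    rw [reductionPic0Along_mk] at hz
    have h2 := (QuotientAddGroup.eq_zero_iff _).mp hz
    exact h2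
  have hD := H r hr p hp hpl D.1 D.2 hpD hrD
  exact (QuotientAddGroup.eq_zero_iff _).mpr hD

set_option synthInstance.maxHeartbeats 400000 in
set_option maxHeartbeats 1000000 in
/-- **R1 by the KUMMER route**: `RedTorsionInjective` from the genus inequality. -/
theorem redTorsionInjective_of_genus_le (N ℓ : ℕ) [NeZero N] (hℓ : ℓ.Prime) (hℓN : ¬ ℓ ∣ N)
    (A : ValuationSubring (AlgebraicClosure ℚ)) (hA : A.LiesOverPrime ℓ)
    (hgg : genusFF (AlgebraicClosure ℚ) (modularFunctionFieldBar N) ≤
      genusFF (IsLocalRing.ResidueField A)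
        (modularFunctionFieldFullC (IsLocalRing.ResidueField A) N)) :
    Fermat.Agent.ESJ.RedTorsionInjective N ℓ A := by
  have : IsAlgClosed (IsLocalRing.ResidueField A) :=
    Fermat.Agent.Lib.FF.CharP.isAlgClosed_residueField A
  have : CharP (IsLocalRing.ResidueField A) ℓ := by
    rw [CharP.charP_iff_prime_eq_zero hℓ]
    have h1 : ((ℓ : A) : AlgebraicClosure ℚ) ∈ A.nonunits := by
      have h2 : ((ℓ : A) : AlgebraicClosure ℚ) = (ℓ : AlgebraicClosure ℚ) := by push_cast; rfl
      rw [h2]
      exact hA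
    have h3 : (ℓ : A) ∈ IsLocalRing.maximalIdeal A := ValuationSubring.coe_mem_nonunits_iff.mp h1
    have h4 : IsLocalRing.residue A (ℓ : A) = 0 := (IsLocalRing.residue_eq_zero_iff _).mpr h3
    rwa [map_natCast] at h4
  have hπ : ∀ a : A, ¬ IsUnit a → IsLocalRing.residue A a = 0 := fun a ha =>
    (IsLocalRing.residue_eq_zero_iff a).mpr ((IsLocalRing.mem_maximalIdeal a).mpr ha)
  have hsurj : Function.Surjective (IsLocalRing.residue A) := IsLocalRing.residue_surjective
  have hNk : (N : IsLocalRing.ResidueField A) ≠ 0 := by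
    rw [Ne, CharP.cast_eq_zero_iff (IsLocalRing.ResidueField A) ℓ]
    exact hℓN
  have hℓlt : A.valuation (ℓ : AlgebraicClosure ℚ) < 1 := RankOne.valuation_prime_lt_one A hA
  have hℓ0 : (ℓ : AlgebraicClosure ℚ) ≠ 0 := Nat.cast_ne_zero.mpr hℓ.ne_zero
  have hnontriv : ∃ c : AlgebraicClosure ℚ, c ∈ A ∧ c ≠ 0 ∧ c⁻¹ ∉ A := by
    refine ⟨ℓ, (A.valuation_le_one_iff _).mp hℓlt.le, hℓ0, fun h => ?_⟩
    have h1 := (A.valuation_le_one_iff _).mpr h
    rw [map_inv₀] at h1
    have h2 : A.valuation (ℓ : AlgebraicClosure ℚ) ≠ 0 := (Valuation.ne_zero_iff _).mpr hℓ0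
    have h3 : 1 ≤ A.valuation (ℓ : AlgebraicClosure ℚ) :=
      (inv_le_one₀ (zero_lt_iff.mpr h2)).mp h1
    exact absurd hℓlt (not_lt.mpr h3)
  refine redTorsionInjective_of_prime N ℓ A fun r hr p hp hpl D hD0 hpD hrD => ?_
  have hpk : (p : IsLocalRing.ResidueField A) ≠ 0 := by
    rw [Ne, CharP.cast_eq_zero_iff (IsLocalRing.ResidueField A) ℓ]
    intro h
    exact hpl ((Nat.prime_dvd_prime_iff_eq hℓ hp).mp h).symm
  exact Kummer.principal_of_prime_torsion_Ow hπ hsurj hNk r hr
    (fun c a hc _ ha hc' => RankOne.exists_pow_mul_mem A hℓ hA c a hc hc' ha) hnontriv hgg hp hpk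
    D hD0 hpD hrD

set_option synthInstance.maxHeartbeats 400000 in
set_option maxHeartbeats 1000000 in
/-- **R1 by the KUMMER route, `r`-wise form**: the genus inequality may be proved using the
place reduction `r` at hand (as in the differential route G-A). -/
theorem redTorsionInjective_of_genus_le_of_reduction (N ℓ : ℕ) [NeZero N] (hℓ : ℓ.Prime)
    (hℓN : ¬ ℓ ∣ N) (A : ValuationSubring (AlgebraicClosure ℚ)) (hA : A.LiesOverPrime ℓ)
    (hgg : ∀ (r : Place (AlgebraicClosure ℚ) (modularFunctionFieldBar N) →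
        Place (IsLocalRing.ResidueField A)
          (modularFunctionFieldFullC (IsLocalRing.ResidueField A) N)),
      IsPlaceReductionModL A N r → PrincipalGeneratedByIntegral A (IsLocalRing.residue A) N →
      genusFF (AlgebraicClosure ℚ) (modularFunctionFieldBar N) ≤
        genusFF (IsLocalRing.ResidueField A)
          (modularFunctionFieldFullC (IsLocalRing.ResidueField A) N)) :
    Fermat.Agent.ESJ.RedTorsionInjective N ℓ A := by
  intro r hr hgen
  exact redTorsionInjective_of_genus_le N ℓ hℓ hℓN A hA (hgg r hr hgen) r hr hgen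

end Fermat.Agent.ESJ.Red
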