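/-
ESJ / RED — **R1 WITHOUT DISC** (route G-A + KUMMER), generic in the base function.

For a base-function datum `B : BaseFn.Data A (residue A) N` (helper41) whose branch values in
characteristic `0` lie in a finite set `Bv ⊆ A` on which the residue map is injective:
`RedTorsionInjective N ℓ A`.

* genus inequality for the GIVEN place reduction: `Lib/Red/InstGenusGA.genusFF_le_of_base`
  (helper59/helper25, differentials — no discriminants);
* separability of `F~ / k(x̄)` : `Lib/FF/ModLSep` (helper86) + `B.hJk`;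
* endgame: `ESJ/Red/R1Kummer.redTorsionInjective_of_genus_le_of_reduction` (helper23).

Instances:
* `redTorsionInjective_ge_five` : `ℓ ≥ 5`, `ℓ ∤ N`, base function `J(q^N)`, `Bv = {0, 1728}`;
* `redTorsionInjective_three_of_two_dvd` : `ℓ = 3`, level `M = m * 2`, `3 ∤ M`, base function
  `y₂(q^m)`, `Bv = {0, -64}`;
* `redTorsionInjective_two_of_three_dvd` : `ℓ = 2`, level `M = m * 3`, `2 ∤ M`, base function
  `t₃(q^m)`, `Bv = {0, -27}`.
-/
import Mathlib
import Fermat.Agent.ESJ.Red.R1Kummer
import Fermat.Agent.Lib.Red.InstGenusGA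
import Fermat.Agent.Lib.Red.InstGenusX
import Fermat.Agent.Lib.Red.BranchInst
import Fermat.Agent.Lib.Red.HauptBranchInst
import Fermat.Agent.Lib.FF.ModLSep
import Fermat.Agent.Lib.FF.CharP.ModLInst

set_option autoImplicit false

namespace Fermat.Agent.ESJ

open ModularCurve AlgebraicCurve Fermat.Agent.Lib.Red Fermat.Agent.Lib.FF
open scoped IntermediateField

noncomputable section

/-- A natural number prime to `ℓ` is nonzero in the residue field of a valuation subring of `ℚ̄`
over `ℓ`. -/
theorem natCast_residue_ne_zero' (A : ValuationSubring (AlgebraicClosure ℚ)) {ℓ : ℕ}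
    (hℓ : ℓ.Prime) (hA : A.LiesOverPrime ℓ) (m : ℕ) (hm : ¬ ℓ ∣ m) :
    (m : IsLocalRing.ResidueField A) ≠ 0 := by
  intro h0
  have hℓA : (ℓ : AlgebraicClosure ℚ) ∈ A.nonunits := hA
  have hℓ0 : IsLocalRing.residue A (ℓ : A) = 0 := by
    rw [IsLocalRing.residue_eq_zero_iff]
    obtain ⟨ha, hmem⟩ := ValuationSubring.mem_nonunits_iff_exists_mem_maximalIdeal.mp hℓA
    have h3 : (⟨(ℓ : AlgebraicClosure ℚ), ha⟩ : A) = (ℓ : A) := by
      apply Subtype.ext
      push_cast
      rfl
    rw [← h3]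
    exact hmem
  have hm0 : IsLocalRing.residue A (m : A) = 0 := by
    rw [map_natCast]; exact h0
  have hcop : Nat.Coprime ℓ m := (Nat.Prime.coprime_iff_not_dvd hℓ).mpr hm
  have hbez : (ℓ : ℤ) * Nat.gcdA ℓ m + (m : ℤ) * Nat.gcdB ℓ m = 1 := by
    have := Nat.gcd_eq_gcd_ab ℓ m
    rw [hcop] at this
    exact_mod_cast this.symm
  have h1 : IsLocalRing.residue A (((ℓ : ℤ) * Nat.gcdA ℓ m + (m : ℤ) * Nat.gcdB ℓ m : ℤ) : A)
      = 1 := by
    rw [hbez]; simp
  have h2 : IsLocalRing.residue A (((ℓ : ℤ) * Nat.gcdA ℓ m + (m : ℤ) * Nat.gcdB ℓ m : ℤ) : A)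
      = 0 := by
    push_cast
    rw [map_add, map_mul, map_mul, hℓ0, hm0, zero_mul, zero_mul, add_zero]
  exact one_ne_zero (h1.symm.trans h2)

/-- The residue map of a local ring kills the nonunits. -/
theorem residue_eq_zero_of_not_isUnit' (A : ValuationSubring (AlgebraicClosure ℚ)) :
    ∀ a : A, ¬ IsUnit a → IsLocalRing.residue A a = 0 := fun a ha =>
  (IsLocalRing.residue_eq_zero_iff a).2 ((IsLocalRing.mem_maximalIdeal a).2 ha)

set_option synthInstance.maxHeartbeats 400000 in
set_option maxHeartbeats 1000000 in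
/-- **R1 without DISC, generic base function.**  If the branch values of the base function
`B.x` of `F / ℚ̄(x)` lie in a finite set `Bv` of elements of `A` which stay distinct in the
residue field, then reduction of divisor classes along any place reduction is injective on
prime-to-`ℓ` torsion. -/
theorem redTorsionInjective_of_branch (N ℓ : ℕ) [NeZero N] (hℓ : ℓ.Prime) (hℓN : ¬ ℓ ∣ N)
    (A : ValuationSubring (AlgebraicClosure ℚ)) (hA : A.LiesOverPrime ℓ)
    (B : BaseFn.Data A (IsLocalRing.residue A) N)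
    (Bv : Finset (AlgebraicClosure ℚ)) (hBvA : ∀ b ∈ Bv, b ∈ A)
    (hBvinj : ∀ b b' : A, (b : AlgebraicClosure ℚ) ∈ Bv → (b' : AlgebraicClosure ℚ) ∈ Bv →
      IsLocalRing.residue A b = IsLocalRing.residue A b' → b = b')
    (hB : ∀ (P : Place (AlgebraicClosure ℚ)
          ↥(laurentBaseChange (AlgebraicClosure ℚ) (modularFunctionFieldFull N)))
        (c : AlgebraicClosure ℚ), c ∉ Bv →
      0 < P.ord (B.x - algebraMap (AlgebraicClosure ℚ)
        ↥(laurentBaseChange (AlgebraicClosure ℚ) (modularFunctionFieldFull N)) c) →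
      P.ord (B.x - algebraMap (AlgebraicClosure ℚ)
        ↥(laurentBaseChange (AlgebraicClosure ℚ) (modularFunctionFieldFull N)) c) = 1) :
    RedTorsionInjective N ℓ A := by
  have : IsAlgClosed (IsLocalRing.ResidueField A) := CharP.isAlgClosed_residueField A
  have hNk : (N : IsLocalRing.ResidueField A) ≠ 0 := natCast_residue_ne_zero' A hℓ hA N hℓN
  have hπ := residue_eq_zero_of_not_isUnit' A
  have hsurj : Function.Surjective (IsLocalRing.residue A) := IsLocalRing.residue_surjective
  -- separability of the reduced covering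
  have hE : (IsLocalRing.ResidueField A)⟮xk (IsLocalRing.ResidueField A) N⟯ ≤
      (IsLocalRing.ResidueField A)⟮B.xt hπ hNk⟯ := by
    rw [IntermediateField.adjoin_simple_le_iff]
    exact (BaseFn.mem_adjoin_xt_iff hπ hNk B.X B.hX _).mpr B.hJk
  have hsep : Algebra.IsSeparable (IsLocalRing.ResidueField A)⟮B.xt hπ hNk⟯
      ↥(modularFunctionFieldFullC (IsLocalRing.ResidueField A) N) :=
    ModL.isSeparable_of_le (IsLocalRing.ResidueField A) N hNk _ hE
  have hspan : Submodule.span ↥(modularFunctionFieldFullC (IsLocalRing.ResidueField A) N)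
      {KaehlerDifferential.D (IsLocalRing.ResidueField A)
        ↥(modularFunctionFieldFullC (IsLocalRing.ResidueField A) N) (B.xt hπ hNk)} = ⊤ :=
    Res.span_D_eq_top_of_isSeparable (B.xt hπ hNk)
  refine Red.redTorsionInjective_of_genus_le_of_reduction N ℓ hℓ hℓN A hA fun r hr _ => ?_
  exact GenusGA.genusFF_le_of_base hπ hsurj hNk ⟨B.x, B.x_mem_Ow hNk⟩
    (InstGenusX.isFF1_x B hπ hsurj hNk) (InstGenusX.isFF1_xt B hπ hsurj hNk)
    (B.finrank_eq hπ hsurj hNk) Bv hBvA hBvinj hB hspan r hr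

/-- An integer prime to `ℓ` is nonzero in the residue field of a valuation subring of `ℚ̄` over
`ℓ`. -/
theorem intCast_residue_ne_zero' (A : ValuationSubring (AlgebraicClosure ℚ)) {ℓ : ℕ}
    (hℓ : ℓ.Prime) (hA : A.LiesOverPrime ℓ) (z : ℤ) (hz : ¬ (ℓ : ℤ) ∣ z) :
    (z : IsLocalRing.ResidueField A) ≠ 0 := by
  have h1 : ¬ ℓ ∣ z.natAbs := fun h => hz (Int.natCast_dvd.mpr h)
  have h2 := natCast_residue_ne_zero' A hℓ hA z.natAbs h1
  intro h0
  apply h2
  rcases Int.natAbs_eq z with h | h
  · have : (z : IsLocalRing.ResidueField A) = ((z.natAbs : ℤ) : IsLocalRing.ResidueField A) := by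
      rw [← h]
    rw [this, Int.cast_natCast] at h0
    exact h0
  · have : (z : IsLocalRing.ResidueField A) = ((-(z.natAbs : ℤ) : ℤ) : IsLocalRing.ResidueField A) := by
      rw [← h]
    rw [this, Int.cast_neg, Int.cast_natCast, neg_eq_zero] at h0
    exact h0

set_option synthInstance.maxHeartbeats 400000 in
set_option maxHeartbeats 1000000 in
/-- **R1 without DISC, two branch values `0` and an integer `z` prime to `ℓ`.** -/
theorem redTorsionInjective_of_branch_int (N ℓ : ℕ) [NeZero N] (hℓ : ℓ.Prime) (hℓN : ¬ ℓ ∣ N)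
    (A : ValuationSubring (AlgebraicClosure ℚ)) (hA : A.LiesOverPrime ℓ)
    (B : BaseFn.Data A (IsLocalRing.residue A) N) (z : ℤ) (hz : ¬ (ℓ : ℤ) ∣ z)
    (hB : ∀ (P : Place (AlgebraicClosure ℚ)
          ↥(laurentBaseChange (AlgebraicClosure ℚ) (modularFunctionFieldFull N)))
        (c : AlgebraicClosure ℚ), c ≠ 0 → c ≠ (z : AlgebraicClosure ℚ) →
      0 < P.ord (B.x - algebraMap (AlgebraicClosure ℚ)
        ↥(laurentBaseChange (AlgebraicClosure ℚ) (modularFunctionFieldFull N)) c) →
      P.ord (B.x - algebraMap (AlgebraicClosure ℚ)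
        ↥(laurentBaseChange (AlgebraicClosure ℚ) (modularFunctionFieldFull N)) c) = 1) :
    RedTorsionInjective N ℓ A := by
  classical
  have hzk := intCast_residue_ne_zero' A hℓ hA z hz
  have hzA : ((z : ℤ) : AlgebraicClosure ℚ) ∈ A := intCast_mem A z
  have hres0 : ∀ b : A, (b : AlgebraicClosure ℚ) = 0 → IsLocalRing.residue A b = 0 := by
    intro b hb
    have : b = 0 := Subtype.ext hb
    rw [this, map_zero]
  have hresz : ∀ b : A, (b : AlgebraicClosure ℚ) = (z : AlgebraicClosure ℚ) →
      IsLocalRing.residue A b = (z : IsLocalRing.ResidueField A) := by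
    intro b hb
    have : b = ((z : ℤ) : A) := Subtype.ext (by rw [hb]; push_cast; rfl)
    rw [this, map_intCast]
  refine redTorsionInjective_of_branch N ℓ hℓ hℓN A hA B {0, (z : AlgebraicClosure ℚ)} ?_ ?_ ?_
  · intro b hb
    rw [Finset.mem_insert, Finset.mem_singleton] at hb
    rcases hb with rfl | rfl
    · exact A.zero_mem
    · exact hzA
  · intro b b' hb hb' hbb
    rw [Finset.mem_insert, Finset.mem_singleton] at hb hb'
    rcases hb with hb | hb <;> rcases hb' with hb' | hb'
    · exact Subtype.ext (hb.trans hb'.symm)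
    · exfalso
      rw [hres0 b hb, hresz b' hb'] at hbb
      exact hzk hbb.symm
    · exfalso
      rw [hres0 b' hb', hresz b hb] at hbb
      exact hzk hbb
    · exact Subtype.ext (hb.trans hb'.symm)
  · intro P c hc hP
    rw [Finset.mem_insert, Finset.mem_singleton, not_or] at hc
    exact hB P c hc.1 hc.2 hP

set_option synthInstance.maxHeartbeats 400000 in
set_option maxHeartbeats 1000000 in
/-- **R1 for `ℓ ≥ 5`** (`ℓ ∤ N`): base function `J(q^N)`, branch values `0, 1728`. -/
theorem redTorsionInjective_ge_five (N ℓ : ℕ) [NeZero N] (hℓ : ℓ.Prime) (hℓN : ¬ ℓ ∣ N)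
    (h5 : 5 ≤ ℓ) (A : ValuationSubring (AlgebraicClosure ℚ)) (hA : A.LiesOverPrime ℓ) :
    RedTorsionInjective N ℓ A := by
  have hz : ¬ (ℓ : ℤ) ∣ (1728 : ℤ) := by
    intro h
    have h1 : ℓ ∣ 1728 := by exact_mod_cast h
    have h2 : (1728 : ℕ) = 2 ^ 6 * 3 ^ 3 := by norm_num
    rw [h2] at h1
    rcases (Nat.Prime.dvd_mul hℓ).mp h1 with h3 | h3
    · have := (Nat.prime_dvd_prime_iff_eq hℓ Nat.prime_two).mp (hℓ.dvd_of_dvd_pow h3)
      omega
    · have := (Nat.prime_dvd_prime_iff_eq hℓ Nat.prime_three).mp (hℓ.dvd_of_dvd_pow h3)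
      omega
  refine redTorsionInjective_of_branch_int N ℓ hℓ hℓN A hA
    (BaseFn.Data.ofJ A (IsLocalRing.residue A) N) 1728 hz ?_
  intro P c hc0 hc1 hP
  rw [BaseFn.Data.ofJ_x] at hP ⊢
  refine BranchInst.ord_xL_sub_generic N c hc0 ?_ P hP
  intro h
  apply hc1
  rw [h]
  norm_num

set_option synthInstance.maxHeartbeats 400000 in
set_option maxHeartbeats 1000000 in
/-- **R1 for `ℓ = 3` at a level divisible by `2`**: base function `y₂(q^m)`, branch values
`0, -64`. -/
theorem redTorsionInjective_three_of_two_dvd (M m : ℕ) [NeZero M] [NeZero m] (hM : M = m * 2)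
    (h3M : ¬ 3 ∣ M) (A : ValuationSubring (AlgebraicClosure ℚ)) (hA : A.LiesOverPrime 3) :
    RedTorsionInjective M 3 A := by
  have h2 : (2 : IsLocalRing.ResidueField A) ≠ 0 := by
    have := natCast_residue_ne_zero' A Nat.prime_three hA 2 (by decide)
    exact_mod_cast this
  refine redTorsionInjective_of_branch_int M 3 Nat.prime_three h3M A hA
    (BaseFn.ofHaupt2 A (IsLocalRing.residue A) M m hM h2) (-64) (by decide) ?_
  intro P c hc0 hc1 hP
  refine BaseFn.ord_ofHaupt2_sub_eq_one A (IsLocalRing.residue A) M m hM h2 c hc0 ?_ P hP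
  intro h
  apply hc1
  rw [h]
  norm_num

set_option synthInstance.maxHeartbeats 400000 in
set_option maxHeartbeats 1000000 in
/-- **R1 for `ℓ = 2` at a level divisible by `3`**: base function `t₃(q^m)`, branch values
`0, -27`. -/
theorem redTorsionInjective_two_of_three_dvd (M m : ℕ) [NeZero M] [NeZero m] (hM : M = m * 3)
    (h2M : ¬ 2 ∣ M) (A : ValuationSubring (AlgebraicClosure ℚ)) (hA : A.LiesOverPrime 2) :
    RedTorsionInjective M 2 A := by
  have h3 : (3 : IsLocalRing.ResidueField A) ≠ 0 := by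
    have := natCast_residue_ne_zero' A Nat.prime_two hA 3 (by decide)
    exact_mod_cast this
  refine redTorsionInjective_of_branch_int M 2 Nat.prime_two h2M A hA
    (BaseFn.ofHaupt3 A (IsLocalRing.residue A) M m hM h3) (-27) (by decide) ?_
  intro P c hc0 hc1 hP
  refine BaseFn.ord_ofHaupt3_sub_eq_one A (IsLocalRing.residue A) M m hM h3 c hc0 ?_ P hP
  intro h
  apply hc1
  rw [h]
  norm_num

end

end Fermat.Agent.ESJ
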