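/-
ESJ / RED-23 (helper41): R1 (`RedTorsionInjective`) at the primes `ℓ = 2, 3` for the levels
divisible by the auxiliary prime, by the differential route G-A.

* `R1Haupt.adjoin_xk_le`, `isSeparable_xt`, `span_D_xt` : SEP for an arbitrary base function;
* `R1Haupt.genusFF_le_of_branch` : the genus inequality (G-A, `GenusGA.genusFF_le_of_base`)
  for a base function `B : BaseFn.Data A π N` with branch values in a finite set `Bv ⊆ A` on which
  `π` is injective — for every place reduction `r`;
* `genusFF_le_haupt2`, `genusFF_le_haupt3` : the instances `x = y₂(q^m)` (level `m * 2`, `ℓ = 3`)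
  and `x = t₃(q^m)` (level `m * 3`, `ℓ = 2`);
* `redTorsionInjective_three_of_two_dvd` : `RedTorsionInjective M 3 A` for `2 ∣ M`, `3 ∤ M`;
* `redTorsionInjective_two_of_three_dvd` : `RedTorsionInjective M 2 A` for `3 ∣ M`, `2 ∤ M`.
-/
import Mathlib
import Fermat.Agent.ESJ.Red.R1Kummer
import Fermat.Agent.Lib.Red.InstGenusGA
import Fermat.Agent.Lib.Red.InstGenusX
import Fermat.Agent.Lib.Red.HauptBranchInst
import Fermat.Agent.Lib.FF.ModLSep

set_option autoImplicit false
set_option linter.unusedSectionVars false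
set_option linter.style.haveILetI false

namespace Fermat.Agent.Lib.Red.R1Haupt

open ModularCurve AlgebraicCurve IntermediateField KaehlerDifferential Fermat.Agent.S28
  Fermat.Agent.S24 Fermat.Agent.Lib.FF Fermat.Agent.Lib.Red Fermat.Agent.Lib.Red.BaseFn

noncomputable section

section Generic

variable {L : Type*} [Field L] [Algebra ℚ L] {A : ValuationSubring L} {k : Type} [Field k]
  {π : A →+* k} {N : ℕ} [NeZero N] (B : BaseFn.Data A π N)

/-- `k(J̄(q^N)) ⊆ k(x̄)`. -/
theorem adjoin_xk_le (hπ : ∀ a : A, ¬ IsUnit a → π a = 0) (hNk : (N : k) ≠ 0) :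
    k⟮Red.xk k N⟯ ≤ k⟮B.xt hπ hNk⟯ := by
  rw [IntermediateField.adjoin_simple_le_iff]
  exact (mem_adjoin_xt_iff hπ hNk B.X B.hX _).mpr B.hJk

/-- **SEP** for an arbitrary base function: `F̃ / k(x̄)` is separable. -/
theorem isSeparable_xt (hπ : ∀ a : A, ¬ IsUnit a → π a = 0) (hNk : (N : k) ≠ 0) :
    Algebra.IsSeparable ↥(k⟮B.xt hπ hNk⟯) ↥(modularFunctionFieldFullC k N) :=
  ModL.isSeparable_of_le k N hNk _ (adjoin_xk_le B hπ hNk)

set_option maxHeartbeats 1000000 in
set_option synthInstance.maxHeartbeats 400000 in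
/-- `d x̄` spans the differentials of `F̃ / k`. -/
theorem span_D_xt (hπ : ∀ a : A, ¬ IsUnit a → π a = 0) (hNk : (N : k) ≠ 0) :
    Submodule.span ↥(modularFunctionFieldFullC k N)
      {D k ↥(modularFunctionFieldFullC k N) (B.xt hπ hNk)} = ⊤ := by
  haveI := isSeparable_xt B hπ hNk
  exact GenusGA.span_D_eq_top_of_isSeparable (K := k) (B.xt hπ hNk)

set_option maxHeartbeats 1000000 in
set_option synthInstance.maxHeartbeats 400000 in
/-- **The genus inequality (G-A) for a base function `B`** whose branch values lie in a finite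
set `Bv ⊆ A` on which `π` is injective, for every place reduction `r`. -/
theorem genusFF_le_of_branch [IsAlgClosed L] [IsAlgClosed k]
    (hπ : ∀ a : A, ¬ IsUnit a → π a = 0) (hsurj : Function.Surjective π) (hNk : (N : k) ≠ 0)
    (Bv : Finset L) (hBvA : ∀ b ∈ Bv, b ∈ A)
    (hBvinj : ∀ b b' : A, (b : L) ∈ Bv → (b' : L) ∈ Bv → π b = π b' → b = b')
    (hB : ∀ (P : Place L ↥(laurentBaseChange L (modularFunctionFieldFull N))) (c : L), c ∉ Bv →
      0 < P.ord (B.x - algebraMap L ↥(laurentBaseChange L (modularFunctionFieldFull N)) c) →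
      P.ord (B.x - algebraMap L ↥(laurentBaseChange L (modularFunctionFieldFull N)) c) = 1)
    (r : Place L ↥(laurentBaseChange L (modularFunctionFieldFull N)) →
      Place k ↥(modularFunctionFieldFullC k N))
    (hr : IsPlaceReductionAlong A π N r) :
    genusFF L ↥(laurentBaseChange L (modularFunctionFieldFull N)) ≤
      genusFF k ↥(modularFunctionFieldFullC k N) :=
  GenusGA.genusFF_le_of_base hπ hsurj hNk ⟨B.x, B.x_mem_Ow hNk⟩
    (InstGenusX.isFF1_x B hπ hsurj hNk) (InstGenusX.isFF1_xt B hπ hsurj hNk)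
    (B.finrank_eq hπ hsurj hNk) Bv hBvA hBvinj hB (span_D_xt B hπ hNk) r hr

end Generic

/-! ### The Hauptmodul instances -/

section Haupt

variable (A : ValuationSubring KQ)

/-- The residue map kills the non-units. -/
theorem residue_eq_zero_of_not_isUnit (a : A) (ha : ¬ IsUnit a) : IsLocalRing.residue A a = 0 :=
  (IsLocalRing.residue_eq_zero_iff a).mpr ((IsLocalRing.mem_maximalIdeal a).mpr ha)

/-- The residue field of a valuation ring over `ℓ` has characteristic `ℓ`. -/
theorem charP_residueField_of_liesOverPrime {ℓ : ℕ} (hℓ : ℓ.Prime) (hA : A.LiesOverPrime ℓ) :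
    CharP (IsLocalRing.ResidueField A) ℓ := by
  rw [CharP.charP_iff_prime_eq_zero hℓ]
  have h1 : ((ℓ : A) : KQ) ∈ A.nonunits := by
    have h2 : ((ℓ : A) : KQ) = (ℓ : KQ) := by push_cast; rfl
    rw [h2]
    exact hA
  have h3 : (ℓ : A) ∈ IsLocalRing.maximalIdeal A := ValuationSubring.coe_mem_nonunits_iff.mp h1
  have h4 : IsLocalRing.residue A (ℓ : A) = 0 := (IsLocalRing.residue_eq_zero_iff _).mpr h3
  rwa [map_natCast] at h4

/-- A natural number prime to the residue characteristic is nonzero in the residue field. -/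
theorem natCast_residue_ne_zero_of_not_dvd {ℓ : ℕ} (hℓ : ℓ.Prime) (hA : A.LiesOverPrime ℓ)
    {n : ℕ} (hn : ¬ ℓ ∣ n) : (n : IsLocalRing.ResidueField A) ≠ 0 := by
  haveI := charP_residueField_of_liesOverPrime A hℓ hA
  rw [Ne, CharP.cast_eq_zero_iff (IsLocalRing.ResidueField A) ℓ]
  exact hn

/-- Two-point branch sets: the hypotheses `hBvA`, `hBvinj` for `Bv = {0, -n}`. -/
theorem pair_mem (n : ℕ) : ∀ b ∈ ({0, -(n : KQ)} : Finset KQ), b ∈ A := by
  intro b hb
  rw [Finset.mem_insert, Finset.mem_singleton] at hb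
  rcases hb with rfl | rfl
  · exact A.zero_mem
  · exact A.neg_mem _ (natCast_mem A n)

theorem pair_inj (n : ℕ) (hn : (n : IsLocalRing.ResidueField A) ≠ 0) :
    ∀ b b' : A, (b : KQ) ∈ ({0, -(n : KQ)} : Finset KQ) → (b' : KQ) ∈ ({0, -(n : KQ)} : Finset KQ) →
      IsLocalRing.residue A b = IsLocalRing.residue A b' → b = b' := by
  intro b b' hb hb' h
  rw [Finset.mem_insert, Finset.mem_singleton] at hb hb'
  have key : ∀ c c' : A, (c : KQ) = 0 → (c' : KQ) = -(n : KQ) →
      IsLocalRing.residue A c ≠ IsLocalRing.residue A c' := by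
    intro c c' hc hc' h
    have e1 : c = 0 := Subtype.ext hc
    have e2 : c' = -(n : A) := Subtype.ext (by rw [hc']; push_cast; rfl)
    rw [e1, e2, map_zero, map_neg, map_natCast] at h
    exact hn (neg_eq_zero.mp h.symm)
  rcases hb with hb | hb <;> rcases hb' with hb' | hb'
  · exact Subtype.ext (hb.trans hb'.symm)
  · exact absurd h (key b b' hb hb')
  · exact absurd h.symm (key b' b hb' hb)
  · exact Subtype.ext (hb.trans hb'.symm)

set_option maxHeartbeats 1000000 in
set_option synthInstance.maxHeartbeats 400000 in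
/-- **The genus inequality at level `M = m * 2`, `ℓ = 3`** (base function `y₂(q^m)`, branch
values `0, -64`), for every place reduction `r`. -/
theorem genusFF_le_haupt2 (M m : ℕ) [NeZero M] [NeZero m] (hM : M = m * 2)
    (hA : A.LiesOverPrime 3) (h3 : ¬ 3 ∣ M)
    (r : Place KQ (modularFunctionFieldBar M) →
      Place (IsLocalRing.ResidueField A)
        (modularFunctionFieldFullC (IsLocalRing.ResidueField A) M))
    (hr : IsPlaceReductionModL A M r) :
    genusFF KQ (modularFunctionFieldBar M) ≤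
      genusFF (IsLocalRing.ResidueField A)
        (modularFunctionFieldFullC (IsLocalRing.ResidueField A) M) := by
  classical
  haveI : IsAlgClosed (IsLocalRing.ResidueField A) :=
    Fermat.Agent.Lib.FF.CharP.isAlgClosed_residueField A
  have hπ := residue_eq_zero_of_not_isUnit A
  have hsurj : Function.Surjective (IsLocalRing.residue A) := IsLocalRing.residue_surjective
  have hMk : (M : IsLocalRing.ResidueField A) ≠ 0 :=
    natCast_residue_ne_zero_of_not_dvd A Nat.prime_three hA h3
  have h2 : (2 : IsLocalRing.ResidueField A) ≠ 0 := by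
    have := natCast_residue_ne_zero_of_not_dvd A Nat.prime_three hA (n := 2) (by norm_num)
    exact_mod_cast this
  have h64 : ((64 : ℕ) : IsLocalRing.ResidueField A) ≠ 0 :=
    natCast_residue_ne_zero_of_not_dvd A Nat.prime_three hA (n := 64) (by norm_num)
  refine genusFF_le_of_branch (ofHaupt2 A (IsLocalRing.residue A) M m hM h2) hπ hsurj hMk
    {0, -((64 : ℕ) : KQ)} (pair_mem A 64) (pair_inj A 64 h64) ?_ r hr
  intro P c hc hP
  rw [Finset.mem_insert, Finset.mem_singleton, not_or] at hc
  refine ord_ofHaupt2_sub_eq_one A (IsLocalRing.residue A) M m hM h2 c hc.1 ?_ P hP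
  intro h
  exact hc.2 (by rw [h]; norm_num)

set_option maxHeartbeats 1000000 in
set_option synthInstance.maxHeartbeats 400000 in
/-- **The genus inequality at level `M = m * 3`, `ℓ = 2`** (base function `t₃(q^m)`, branch
values `0, -27`), for every place reduction `r`. -/
theorem genusFF_le_haupt3 (M m : ℕ) [NeZero M] [NeZero m] (hM : M = m * 3)
    (hA : A.LiesOverPrime 2) (h2 : ¬ 2 ∣ M)
    (r : Place KQ (modularFunctionFieldBar M) →
      Place (IsLocalRing.ResidueField A)
        (modularFunctionFieldFullC (IsLocalRing.ResidueField A) M))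
    (hr : IsPlaceReductionModL A M r) :
    genusFF KQ (modularFunctionFieldBar M) ≤
      genusFF (IsLocalRing.ResidueField A)
        (modularFunctionFieldFullC (IsLocalRing.ResidueField A) M) := by
  classical
  haveI : IsAlgClosed (IsLocalRing.ResidueField A) :=
    Fermat.Agent.Lib.FF.CharP.isAlgClosed_residueField A
  have hπ := residue_eq_zero_of_not_isUnit A
  have hsurj : Function.Surjective (IsLocalRing.residue A) := IsLocalRing.residue_surjective
  have hMk : (M : IsLocalRing.ResidueField A) ≠ 0 :=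
    natCast_residue_ne_zero_of_not_dvd A Nat.prime_two hA h2
  have h3 : (3 : IsLocalRing.ResidueField A) ≠ 0 := by
    have := natCast_residue_ne_zero_of_not_dvd A Nat.prime_two hA (n := 3) (by norm_num)
    exact_mod_cast this
  have h27 : ((27 : ℕ) : IsLocalRing.ResidueField A) ≠ 0 :=
    natCast_residue_ne_zero_of_not_dvd A Nat.prime_two hA (n := 27) (by norm_num)
  refine genusFF_le_of_branch (ofHaupt3 A (IsLocalRing.residue A) M m hM h3) hπ hsurj hMk
    {0, -((27 : ℕ) : KQ)} (pair_mem A 27) (pair_inj A 27 h27) ?_ r hr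
  intro P c hc hP
  rw [Finset.mem_insert, Finset.mem_singleton, not_or] at hc
  refine ord_ofHaupt3_sub_eq_one A (IsLocalRing.residue A) M m hM h3 c hc.1 ?_ P hP
  intro h
  exact hc.2 (by rw [h]; norm_num)

end Haupt

end

end Fermat.Agent.Lib.Red.R1Haupt

namespace Fermat.Agent.ESJ.Red

open ModularCurve AlgebraicCurve Fermat.Agent.Lib.Red

/-- **R1 at `ℓ = 3` for even levels**: `RedTorsionInjective M 3 A` for `2 ∣ M`, `3 ∤ M`. -/
theorem redTorsionInjective_three_of_two_dvd (M : ℕ) [NeZero M] (h2 : 2 ∣ M) (h3 : ¬ 3 ∣ M)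
    (A : ValuationSubring (AlgebraicClosure ℚ)) (hA : A.LiesOverPrime 3) :
    Fermat.Agent.ESJ.RedTorsionInjective M 3 A := by
  obtain ⟨m, hm⟩ := h2
  have hM : M = m * 2 := by omega
  haveI : NeZero m := ⟨by
    rintro rfl
    exact NeZero.ne M (by simpa using hM)⟩
  intro r hr
  exact redTorsionInjective_of_genus_le M 3 Nat.prime_three h3 A hA
    (R1Haupt.genusFF_le_haupt2 A M m hM hA h3 r hr) r hr

/-- **R1 at `ℓ = 2` for levels divisible by `3`**: `RedTorsionInjective M 2 A` for `3 ∣ M`,
`2 ∤ M`. -/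
theorem redTorsionInjective_two_of_three_dvd (M : ℕ) [NeZero M] (h3 : 3 ∣ M) (h2 : ¬ 2 ∣ M)
    (A : ValuationSubring (AlgebraicClosure ℚ)) (hA : A.LiesOverPrime 2) :
    Fermat.Agent.ESJ.RedTorsionInjective M 2 A := by
  obtain ⟨m, hm⟩ := h3
  have hM : M = m * 3 := by omega
  haveI : NeZero m := ⟨by
    rintro rfl
    exact NeZero.ne M (by simpa using hM)⟩
  intro r hr
  exact redTorsionInjective_of_genus_le M 2 Nat.prime_two h2 A hA
    (R1Haupt.genusFF_le_haupt3 A M m hM hA h2 r hr) r hr

end Fermat.Agent.ESJ.Red
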