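import Mathlib
import Fermat.Agent.ESJ.Red.R1
import Fermat.Agent.ESJ.Red.R1Kummer

/-!
# ESJ / RED — R1 from good reduction of the two charts ALONE (KUMMER endgame on top of GEN)

`redTorsionInjective_of_T3` : `RedTorsionInjective N ℓ A` from `hT3`, `hT3'` only — the same two
hypotheses as in `redTorsionInjective_of_disc` (`ESJ/Red/R1.lean`), but WITHOUT `hT2`
(no unramifiedness of `F~ / k(x̄)` is needed by the KUMMER endgame).

Proof: `hT3`, `hT3'` and T4 (`OrthInst.hT4`, on main) give the genus inequality
(`InstGenus.genusFF_le_modular`), and `Red.redTorsionInjective_of_genus_le` does the rest.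
-/

set_option autoImplicit false

namespace Fermat.Agent.ESJ.Red

open ModularCurve AlgebraicCurve Fermat.Agent.Lib.Red Fermat.Agent.Lib.FF

set_option synthInstance.maxHeartbeats 400000 in
set_option maxHeartbeats 1000000 in
/-- **R1 from T3 + T3' only.** -/
theorem redTorsionInjective_of_T3 (N ℓ : ℕ) [NeZero N] (hℓ : ℓ.Prime) (hℓN : ¬ ℓ ∣ N)
    (A : ValuationSubring (AlgebraicClosure ℚ)) (hA : A.LiesOverPrime ℓ)
    (hT3 : ∀ s : ↥(modularFunctionFieldFullC (IsLocalRing.ResidueField A) N),
        (∀ Q : Place (IsLocalRing.ResidueField A)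
            ↥(modularFunctionFieldFullC (IsLocalRing.ResidueField A) N),
          0 ≤ Q.ord (xk (IsLocalRing.ResidueField A) N) → 0 ≤ Q.ord s) →
        ∃ y : Ow A (IsLocalRing.residue A) N (natCast_residue_ne_zero A hℓ hA N hℓN),
          redF A (IsLocalRing.residue A) N (OneStepGlue.residue_eq_zero_of_not_isUnit A)
            (natCast_residue_ne_zero A hℓ hA N hℓN) y = s ∧
          ∀ P : Place (AlgebraicClosure ℚ)
              ↥(laurentBaseChange (AlgebraicClosure ℚ) (modularFunctionFieldFull N)),
            0 ≤ P.ord (xL (AlgebraicClosure ℚ) N) →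
              0 ≤ P.ord (y : ↥(laurentBaseChange (AlgebraicClosure ℚ)
                (modularFunctionFieldFull N))))
    (hT3' : ∀ s : ↥(modularFunctionFieldFullC (IsLocalRing.ResidueField A) N),
        (∀ Q : Place (IsLocalRing.ResidueField A)
            ↥(modularFunctionFieldFullC (IsLocalRing.ResidueField A) N),
          Q.ord (xk (IsLocalRing.ResidueField A) N) ≤ 0 → 0 ≤ Q.ord s) →
        ∃ y : Ow A (IsLocalRing.residue A) N (natCast_residue_ne_zero A hℓ hA N hℓN),
          redF A (IsLocalRing.residue A) N (OneStepGlue.residue_eq_zero_of_not_isUnit A)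
            (natCast_residue_ne_zero A hℓ hA N hℓN) y = s ∧
          ∀ P : Place (AlgebraicClosure ℚ)
              ↥(laurentBaseChange (AlgebraicClosure ℚ) (modularFunctionFieldFull N)),
            P.ord (xL (AlgebraicClosure ℚ) N) ≤ 0 →
              0 ≤ P.ord (y : ↥(laurentBaseChange (AlgebraicClosure ℚ)
                (modularFunctionFieldFull N)))) :
    RedTorsionInjective N ℓ A := by
  have : IsAlgClosed (IsLocalRing.ResidueField A) := CharP.isAlgClosed_residueField A
  have hNk : (N : IsLocalRing.ResidueField A) ≠ 0 := natCast_residue_ne_zero A hℓ hA N hℓN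
  have hπ := OneStepGlue.residue_eq_zero_of_not_isUnit A
  have hsurj : Function.Surjective (IsLocalRing.residue A) := IsLocalRing.residue_surjective
  exact redTorsionInjective_of_genus_le N ℓ hℓ hℓN A hA
    (InstGenus.genusFF_le_modular (A := A) (π := IsLocalRing.residue A) hπ hsurj hNk
      hT3 hT3' (OrthInst.hT4 hπ hsurj hNk))

end Fermat.Agent.ESJ.Red
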