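import Mathlib
import Fermat.Agent.ESJ.Interfaces
import Fermat.Agent.ESJ.Red.R1Kummer
import Fermat.Agent.Lib.Red.InstGenusGA
import Fermat.Agent.Lib.Red.InstGenusX
import Fermat.Agent.Lib.Red.BranchInst
import Fermat.Agent.Lib.FF.ModLSep
import Fermat.Agent.Lib.FF.DiffLocal

/-!
# ESJ / RED, second route: R1 (`RedTorsionInjective`) without discriminants

The second route to R1 uses the place reduction `r` that `RedTorsionInjective` quantifies over:

* `Lib/Red/GenusGA`, `InstGenusGA` (route G-A): for every place reduction `r` and every base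
  function `x` whose branch values are integral and stay distinct in the residue field,
  `genusFF (L·F_N) ≤ genusFF (F~)` (the different can only grow under `r`);
* `ESJ/Red/R1Kummer` : R1 from the genus inequality alone.

Here the two are composed:

* `genusFF_le_of_data` : the genus inequality for base-function data `B : BaseFn.Data A π N`
  (separability of `F~ / k(x̄)` is discharged by `ModL.isSeparable_of_le`);
* `redTorsionInjective_of_red_genus` : R1 from a genus inequality that may depend on `r`;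
* `redTorsionInjective_of_data` : R1 from base-function data with good branch values;
* `redTorsionInjective_of_five_le` : **R1 for every prime `ℓ ≥ 5`, `ℓ ∤ N`** (base function
  `J(q^N)`, branch values `0`, `1728`).
-/

set_option autoImplicit false

namespace Fermat.Agent.ESJ.Red.R1Spec

open ModularCurve AlgebraicCurve IntermediateField Fermat.Agent.S28 Fermat.Agent.Lib.FF
  Fermat.Agent.Lib.Red

noncomputable section

section Generic

variable {L : Type*} [Field L] [Algebra ℚ L] {A : ValuationSubring L} {k : Type} [Field k]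
  {π : A →+* k} {N : ℕ} [NeZero N]

set_option maxHeartbeats 1000000 in
set_option synthInstance.maxHeartbeats 400000 in
/-- **The genus inequality (G-A) for base-function data.**  If the branch values of `B.x` lie in
a finite set `Bv ⊆ A` on which `π` is injective, then for every place reduction `r`:
`genusFF L (L·F_N) ≤ genusFF k F~`. -/
theorem genusFF_le_of_data [IsAlgClosed L] [IsAlgClosed k] (B : BaseFn.Data A π N)
    (hπ : ∀ a : A, ¬ IsUnit a → π a = 0) (hsurj : Function.Surjective π) (hNk : (N : k) ≠ 0)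
    (Bv : Finset L) (hBvA : ∀ b ∈ Bv, b ∈ A)
    (hBvinj : ∀ b b' : A, (b : L) ∈ Bv → (b' : L) ∈ Bv → π b = π b' → b = b')
    (hB : ∀ (P : Place L ↥(laurentBaseChange L (modularFunctionFieldFull N))) (c : L), c ∉ Bv →
      0 < P.ord (B.x - algebraMap L ↥(laurentBaseChange L (modularFunctionFieldFull N)) c) →
      P.ord (B.x - algebraMap L ↥(laurentBaseChange L (modularFunctionFieldFull N)) c) = 1)
    (r : Place L ↥(laurentBaseChange L (modularFunctionFieldFull N)) →
      Place k ↥(modularFunctionFieldFullC k N))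
    (hr : IsPlaceReductionAlong A π N r) :
    genusFF L ↥(laurentBaseChange L (modularFunctionFieldFull N)) ≤
      genusFF k ↥(modularFunctionFieldFullC k N) := by
  have hle : k⟮xk k N⟯ ≤ k⟮B.xt hπ hNk⟯ := by
    rw [IntermediateField.adjoin_simple_le_iff]
    refine (BaseFn.mem_adjoin_xt_iff hπ hNk B.X B.hX (xk k N)).mpr ?_
    rw [coe_xk]
    exact B.hJk
  have hsepI : Algebra.IsSeparable ↥(k⟮B.xt hπ hNk⟯) ↥(modularFunctionFieldFullC k N) :=
    ModL.isSeparable_of_le k N hNk _ hle
  have hsep : Submodule.span ↥(modularFunctionFieldFullC k N)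
      {KaehlerDifferential.D k ↥(modularFunctionFieldFullC k N) (B.xt hπ hNk)} = ⊤ :=
    Fermat.Agent.Lib.FF.Res.span_D_eq_top_of_isSeparable (K := k) (B.xt hπ hNk)
  exact GenusGA.genusFF_le_of_base hπ hsurj hNk ⟨B.x, B.x_mem_Ow hNk⟩
    (InstGenusX.isFF1_x B hπ hsurj hNk) (InstGenusX.isFF1_xt B hπ hsurj hNk)
    (B.finrank_eq hπ hsurj hNk) Bv hBvA hBvinj hB hsep r hr

end Generic

variable {N : ℕ} [NeZero N] {A : ValuationSubring (AlgebraicClosure ℚ)}

/-- A natural number prime to `ℓ` is nonzero in the residue field of a valuation subring of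
`ℚ̄` over `ℓ`. -/
theorem natCast_ne_zero_of_not_dvd {ℓ : ℕ} (hℓ : ℓ.Prime) (hA : A.LiesOverPrime ℓ) (m : ℕ)
    (hm : ¬ ℓ ∣ m) : (m : IsLocalRing.ResidueField A) ≠ 0 := by
  have hchar : CharP (IsLocalRing.ResidueField A) ℓ := by
    rw [CharP.charP_iff_prime_eq_zero hℓ]
    obtain ⟨ha, hmem⟩ := (A.mem_nonunits_iff_exists_mem_maximalIdeal).mp hA
    have h1 : IsLocalRing.residue A ⟨(ℓ : AlgebraicClosure ℚ), ha⟩ = 0 :=
      (IsLocalRing.residue_eq_zero_iff _).mpr hmem
    have h2 : (⟨(ℓ : AlgebraicClosure ℚ), ha⟩ : A) = (ℓ : A) := Subtype.ext (by simp)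
    rw [h2, map_natCast] at h1
    exact h1
  rw [Ne, CharP.cast_eq_zero_iff (IsLocalRing.ResidueField A) ℓ]
  exact hm

/-- **R1 from a genus inequality that may use the place reduction.** -/
theorem redTorsionInjective_of_red_genus {ℓ : ℕ} (hℓ : ℓ.Prime) (hℓN : ¬ ℓ ∣ N)
    (hA : A.LiesOverPrime ℓ)
    (hgenus : ∀ r : Place (AlgebraicClosure ℚ) ↥(modularFunctionFieldBar N) →
        Place (IsLocalRing.ResidueField A)
          ↥(modularFunctionFieldFullC (IsLocalRing.ResidueField A) N),
      IsPlaceReductionModL A N r →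
      genusFF (AlgebraicClosure ℚ) ↥(modularFunctionFieldBar N) ≤
        genusFF (IsLocalRing.ResidueField A)
          ↥(modularFunctionFieldFullC (IsLocalRing.ResidueField A) N)) :
    Fermat.Agent.ESJ.RedTorsionInjective N ℓ A := fun r hr =>
  Fermat.Agent.ESJ.Red.redTorsionInjective_of_genus_le N ℓ hℓ hℓN A hA (hgenus r hr) r hr

set_option maxHeartbeats 1000000 in
set_option synthInstance.maxHeartbeats 400000 in
/-- **R1 from base-function data with good branch values** (second route). -/
theorem redTorsionInjective_of_data {ℓ : ℕ} (hℓ : ℓ.Prime) (hℓN : ¬ ℓ ∣ N)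
    (hA : A.LiesOverPrime ℓ) (B : BaseFn.Data A (IsLocalRing.residue A) N)
    (Bv : Finset (AlgebraicClosure ℚ)) (hBvA : ∀ b ∈ Bv, b ∈ A)
    (hBvinj : ∀ b b' : A, (b : AlgebraicClosure ℚ) ∈ Bv → (b' : AlgebraicClosure ℚ) ∈ Bv →
      IsLocalRing.residue A b = IsLocalRing.residue A b' → b = b')
    (hB : ∀ (P : Place (AlgebraicClosure ℚ)
        ↥(laurentBaseChange (AlgebraicClosure ℚ) (modularFunctionFieldFull N)))
        (c : AlgebraicClosure ℚ), c ∉ Bv →
      0 < P.ord (B.x - algebraMap (AlgebraicClosure ℚ)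
        ↥(laurentBaseChange (AlgebraicClosure ℚ) (modularFunctionFieldFull N)) c) →
      P.ord (B.x - algebraMap (AlgebraicClosure ℚ)
        ↥(laurentBaseChange (AlgebraicClosure ℚ) (modularFunctionFieldFull N)) c) = 1) :
    Fermat.Agent.ESJ.RedTorsionInjective N ℓ A := by
  have : IsAlgClosed (IsLocalRing.ResidueField A) :=
    Fermat.Agent.Lib.FF.CharP.isAlgClosed_residueField A
  have hNk : (N : IsLocalRing.ResidueField A) ≠ 0 := natCast_ne_zero_of_not_dvd hℓ hA N hℓN
  refine redTorsionInjective_of_red_genus hℓ hℓN hA fun r hr => ?_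
  exact genusFF_le_of_data B
    (fun a ha => (IsLocalRing.residue_eq_zero_iff a).2 ((IsLocalRing.mem_maximalIdeal a).2 ha))
    IsLocalRing.residue_surjective hNk Bv hBvA hBvinj hB r hr

set_option maxHeartbeats 1000000 in
set_option synthInstance.maxHeartbeats 400000 in
/-- **R1 for `ℓ ≥ 5`, `ℓ ∤ N`, by the second route**: base function `J(q^N)`, branch values
`0` and `1728`, which stay distinct in characteristic `ℓ ≥ 5`. -/
theorem redTorsionInjective_of_five_le (N ℓ : ℕ) [NeZero N] (hℓ : ℓ.Prime) (hℓN : ¬ ℓ ∣ N)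
    (h5 : 5 ≤ ℓ) (A : ValuationSubring (AlgebraicClosure ℚ)) (hA : A.LiesOverPrime ℓ) :
    Fermat.Agent.ESJ.RedTorsionInjective N ℓ A := by
  classical
  have h1728 : (1728 : AlgebraicClosure ℚ) = ((1728 : ℕ) : AlgebraicClosure ℚ) := by norm_cast
  have hk1728 : ((1728 : ℕ) : IsLocalRing.ResidueField A) ≠ 0 := by
    refine natCast_ne_zero_of_not_dvd hℓ hA 1728 fun hdvd => ?_
    have h2 : ℓ ∣ 2 ^ 6 * 3 ^ 3 := by norm_num; exact hdvd
    rcases (Nat.Prime.dvd_mul hℓ).mp h2 with h | h
    · have := Nat.le_of_dvd (by norm_num) (hℓ.dvd_of_dvd_pow h)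
      omega
    · have := Nat.le_of_dvd (by norm_num) (hℓ.dvd_of_dvd_pow h)
      omega
  have hmem1728 : (1728 : AlgebraicClosure ℚ) ∈ A := by
    rw [h1728]; exact natCast_mem A 1728
  have hres1728 : ∀ b : A, (b : AlgebraicClosure ℚ) = 1728 → IsLocalRing.residue A b ≠ 0 := by
    intro b hb
    have hb' : b = ((1728 : ℕ) : A) := by
      apply Subtype.ext
      rw [hb, h1728]
      push_cast
      rfl
    rw [hb', map_natCast]
    exact hk1728
  have hres0 : ∀ b : A, (b : AlgebraicClosure ℚ) = 0 → IsLocalRing.residue A b = 0 := by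
    intro b hb
    have hb' : b = 0 := Subtype.ext hb
    rw [hb', map_zero]
  refine redTorsionInjective_of_data hℓ hℓN hA
    (BaseFn.Data.ofJ A (IsLocalRing.residue A) N) {0, 1728} ?_ ?_ ?_
  · intro b hb
    rw [Finset.mem_insert, Finset.mem_singleton] at hb
    rcases hb with rfl | rfl
    · exact A.zero_mem
    · exact hmem1728
  · intro b b' hb hb' hbb'
    rw [Finset.mem_insert, Finset.mem_singleton] at hb hb'
    rcases hb with hb | hb <;> rcases hb' with hb' | hb'
    · exact Subtype.ext (hb.trans hb'.symm)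
    · exact absurd (hbb'.symm.trans (hres0 b hb)) (hres1728 b' hb')
    · exact absurd (hbb'.trans (hres0 b' hb')) (hres1728 b hb)
    · exact Subtype.ext (hb.trans hb'.symm)
  · intro P c hc hP
    rw [Finset.mem_insert, Finset.mem_singleton, not_or] at hc
    rw [BaseFn.Data.ofJ_x] at hP ⊢
    exact BranchInst.ord_xL_sub_generic N c hc.1 hc.2 P hP

end

end Fermat.Agent.ESJ.Red.R1Spec
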