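import Mathlib
import Fermat.Agent.ESJ.Red.R1Spec
import Fermat.Agent.Lib.Red.HauptBranchInst

/-!
# ESJ / RED, second route: R1 for `ℓ = 3` at even levels and for `ℓ = 2` at levels divisible by 3

With the Hauptmodul base functions `y₂(q^(M/2))` (branch values `0`, `-64`, distinct mod `3`)
resp. `t₃(q^(M/3))` (branch values `0`, `-27`, distinct mod `2`) the second route
(`R1Spec.redTorsionInjective_of_data`) gives, without any hypothesis:

* `redTorsionInjective_three_of_two_dvd` : `RedTorsionInjective M 3 A` for `2 ∣ M`, `3 ∤ M`;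
* `redTorsionInjective_two_of_three_dvd` : `RedTorsionInjective M 2 A` for `3 ∣ M`, `2 ∤ M`.

These are the R1 halves of the hypotheses `H3`, `H2` of `ESJ/Red/R1All`.
-/

set_option autoImplicit false

namespace Fermat.Agent.ESJ.Red.R1Spec

open ModularCurve AlgebraicCurve Fermat.Agent.S28 Fermat.Agent.Lib.FF Fermat.Agent.Lib.Red

noncomputable section

variable {A : ValuationSubring (AlgebraicClosure ℚ)}

/-- `0` and `-n` are integral. -/
theorem branchPair_mem (n : ℕ) :
    ∀ b ∈ ({0, -((n : ℕ) : AlgebraicClosure ℚ)} : Finset (AlgebraicClosure ℚ)), b ∈ A := by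
  classical
  intro b hb
  rw [Finset.mem_insert, Finset.mem_singleton] at hb
  rcases hb with rfl | rfl
  · exact A.zero_mem
  · exact A.neg_mem _ (natCast_mem A n)

/-- `0` and `-n` stay distinct in the residue field when `n ≠ 0` there. -/
theorem branchPair_inj (n : ℕ) (hn : (n : IsLocalRing.ResidueField A) ≠ 0) :
    ∀ b b' : A, (b : AlgebraicClosure ℚ) ∈
        ({0, -((n : ℕ) : AlgebraicClosure ℚ)} : Finset (AlgebraicClosure ℚ)) →
      (b' : AlgebraicClosure ℚ) ∈
        ({0, -((n : ℕ) : AlgebraicClosure ℚ)} : Finset (AlgebraicClosure ℚ)) →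
      IsLocalRing.residue A b = IsLocalRing.residue A b' → b = b' := by
  classical
  have hresn : ∀ b : A, (b : AlgebraicClosure ℚ) = -((n : ℕ) : AlgebraicClosure ℚ) →
      IsLocalRing.residue A b ≠ 0 := by
    intro b hb
    have hb' : b = -((n : ℕ) : A) := by
      apply Subtype.ext
      rw [hb]
      push_cast
      rfl
    rw [hb', map_neg, map_natCast]
    exact neg_ne_zero.mpr hn
  have hres0 : ∀ b : A, (b : AlgebraicClosure ℚ) = 0 → IsLocalRing.residue A b = 0 := by
    intro b hb
    have hb' : b = 0 := Subtype.ext hb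
    rw [hb', map_zero]
  intro b b' hb hb' hbb'
  rw [Finset.mem_insert, Finset.mem_singleton] at hb hb'
  rcases hb with hb | hb <;> rcases hb' with hb' | hb'
  · exact Subtype.ext (hb.trans hb'.symm)
  · exact absurd (hbb'.symm.trans (hres0 b hb)) (hresn b' hb')
  · exact absurd (hbb'.trans (hres0 b' hb')) (hresn b hb)
  · exact Subtype.ext (hb.trans hb'.symm)

set_option maxHeartbeats 1000000 in
set_option synthInstance.maxHeartbeats 400000 in
/-- **R1 for `ℓ = 3` at the even levels** (second route, base function `y₂(q^(M/2))`). -/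
theorem redTorsionInjective_three_of_two_dvd (M : ℕ) [NeZero M] (h2M : 2 ∣ M) (h3M : ¬ 3 ∣ M)
    (A : ValuationSubring (AlgebraicClosure ℚ)) (hA : A.LiesOverPrime 3) :
    Fermat.Agent.ESJ.RedTorsionInjective M 3 A := by
  classical
  obtain ⟨m, hm⟩ := h2M
  have hM : M = m * 2 := by rw [hm, mul_comm]
  haveI : NeZero m := ⟨by
    rintro rfl
    exact NeZero.ne M (by rw [hM, zero_mul])⟩
  have h2k : (2 : IsLocalRing.ResidueField A) ≠ 0 := by
    have := natCast_ne_zero_of_not_dvd Nat.prime_three hA 2 (by decide)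
    exact_mod_cast this
  have h64 : ((64 : ℕ) : IsLocalRing.ResidueField A) ≠ 0 :=
    natCast_ne_zero_of_not_dvd Nat.prime_three hA 64 (by decide)
  refine redTorsionInjective_of_data Nat.prime_three h3M hA
    (BaseFn.ofHaupt2 A (IsLocalRing.residue A) M m hM h2k)
    {0, -((64 : ℕ) : AlgebraicClosure ℚ)} (branchPair_mem 64) (branchPair_inj 64 h64) ?_
  intro P c hc hP
  rw [Finset.mem_insert, Finset.mem_singleton, not_or] at hc
  refine BaseFn.ord_ofHaupt2_sub_eq_one A (IsLocalRing.residue A) M m hM h2k c hc.1 ?_ P hP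
  intro h
  apply hc.2
  rw [h]
  norm_num

set_option maxHeartbeats 1000000 in
set_option synthInstance.maxHeartbeats 400000 in
/-- **R1 for `ℓ = 2` at the levels divisible by `3`** (second route, base function
`t₃(q^(M/3))`). -/
theorem redTorsionInjective_two_of_three_dvd (M : ℕ) [NeZero M] (h3M : 3 ∣ M) (h2M : ¬ 2 ∣ M)
    (A : ValuationSubring (AlgebraicClosure ℚ)) (hA : A.LiesOverPrime 2) :
    Fermat.Agent.ESJ.RedTorsionInjective M 2 A := by
  classical
  obtain ⟨m, hm⟩ := h3M
  have hM : M = m * 3 := by rw [hm, mul_comm]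
  haveI : NeZero m := ⟨by
    rintro rfl
    exact NeZero.ne M (by rw [hM, zero_mul])⟩
  have h3k : (3 : IsLocalRing.ResidueField A) ≠ 0 := by
    have := natCast_ne_zero_of_not_dvd Nat.prime_two hA 3 (by decide)
    exact_mod_cast this
  have h27 : ((27 : ℕ) : IsLocalRing.ResidueField A) ≠ 0 :=
    natCast_ne_zero_of_not_dvd Nat.prime_two hA 27 (by decide)
  refine redTorsionInjective_of_data Nat.prime_two h2M hA
    (BaseFn.ofHaupt3 A (IsLocalRing.residue A) M m hM h3k)
    {0, -((27 : ℕ) : AlgebraicClosure ℚ)} (branchPair_mem 27) (branchPair_inj 27 h27) ?_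
  intro P c hc hP
  rw [Finset.mem_insert, Finset.mem_singleton, not_or] at hc
  refine BaseFn.ord_ofHaupt3_sub_eq_one A (IsLocalRing.residue A) M m hM h3k c hc.1 ?_ P hP
  intro h
  apply hc.2
  rw [h]
  norm_num

end

end Fermat.Agent.ESJ.Red.R1Spec
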