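import Mathlib
import Fermat.Agent.ESJ.Red.R1Spec
import Fermat.Agent.ESJ.Red.R1Spec23
import Fermat.Agent.Lib.Red.LevelDescentDeg

/-!
# ESJ / RED, second route: R1 for all primes `ℓ ∤ N`, modulo R2 at one auxiliary level

`redTorsionInjective_of_auxR2` : `RedTorsionInjective N ℓ A` for every prime `ℓ ∤ N` and every
valuation subring `A` of `ℚ̄` over `ℓ`, where the ONLY remaining hypotheses are

* `ℓ = 3`, `2 ∤ N` : a place reduction at level `N * 2` (`ReductionInputsModL A (N * 2)`);
* `ℓ = 2`, `3 ∤ N` : a place reduction at level `N * 3` (`ReductionInputsModL A (N * 3)`).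

All other cases (`ℓ ≥ 5`; `ℓ = 3` and `2 ∣ N`; `ℓ = 2` and `3 ∣ N`) are unconditional
(`R1Spec.redTorsionInjective_of_five_le`, `R1Spec23`).  The descent from level `N * aux` to
level `N` is `Lib/Red/LevelDescentDeg`.
-/

set_option autoImplicit false

namespace Fermat.Agent.ESJ.Red.R1Spec

open ModularCurve AlgebraicCurve

/-- **R1 for all `ℓ ∤ N`**, modulo a place reduction at the auxiliary level in the two cases
`ℓ = 3, 2 ∤ N` and `ℓ = 2, 3 ∤ N`. -/
theorem redTorsionInjective_of_auxR2 (N ℓ : ℕ) [NeZero N] (hℓ : ℓ.Prime) (hℓN : ¬ ℓ ∣ N)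
    (A : ValuationSubring (AlgebraicClosure ℚ)) (hA : A.LiesOverPrime ℓ)
    (hR2three : ℓ = 3 → ¬ 2 ∣ N → ReductionInputsModL A (N * 2))
    (hR2two : ℓ = 2 → ¬ 3 ∣ N → ReductionInputsModL A (N * 3)) :
    Fermat.Agent.ESJ.RedTorsionInjective N ℓ A := by
  by_cases h5 : 5 ≤ ℓ
  · exact redTorsionInjective_of_five_le N ℓ hℓ hℓN h5 A hA
  have hℓ2 := hℓ.two_le
  have h23 : ℓ = 2 ∨ ℓ = 3 := by
    have h4 : ℓ ≠ 4 := by
      rintro rfl
      exact absurd hℓ (by decide)
    omega
  rcases h23 with rfl | rfl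
  · -- `ℓ = 2`, auxiliary prime `3`
    by_cases h3N : 3 ∣ N
    · exact redTorsionInjective_two_of_three_dvd N h3N hℓN A hA
    · haveI : NeZero (N * 3) := ⟨Nat.mul_ne_zero (NeZero.ne N) (by norm_num)⟩
      have hM : ¬ 2 ∣ N * 3 := by
        intro h
        rcases (Nat.Prime.dvd_mul Nat.prime_two).mp h with h | h
        · exact hℓN h
        · exact absurd h (by decide)
      exact Fermat.Agent.Lib.Red.LevelDescent.redTorsionInjective_two N h3N A (hR2two rfl h3N)
        (redTorsionInjective_two_of_three_dvd (N * 3) (Dvd.intro_left N rfl) hM A hA)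
  · -- `ℓ = 3`, auxiliary prime `2`
    by_cases h2N : 2 ∣ N
    · exact redTorsionInjective_three_of_two_dvd N h2N hℓN A hA
    · haveI : NeZero (N * 2) := ⟨Nat.mul_ne_zero (NeZero.ne N) (by norm_num)⟩
      have hM : ¬ 3 ∣ N * 2 := by
        intro h
        rcases (Nat.Prime.dvd_mul Nat.prime_three).mp h with h | h
        · exact hℓN h
        · exact absurd h (by decide)
      exact Fermat.Agent.Lib.Red.LevelDescent.redTorsionInjective_three N h2N A
        (hR2three rfl h2N)
        (redTorsionInjective_three_of_two_dvd (N * 2) (Dvd.intro_left N rfl) hM A hA)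

end Fermat.Agent.ESJ.Red.R1Spec
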