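/-
ESJ / RED — **R2 for `ℓ ∤ N`, modulo good reduction of the two charts of `x = J(q^N)`**.

`reductionInputsModL_of_lift` : `ReductionInputsModL A N` (existence of a place reduction) from
the SAME two hypotheses `hT3`, `hT3'` as `redTorsionInjective_of_lift` (`ESJ/Red/R1.lean`).
Everything else (the place reduction of the Gauss valuation from norms: `Lib/Red/PlaceRed*`,
`Lib/Red/InstPlace`; separability of `F~ / k(x̄)`: `Lib/FF/ModLSep`) is on main.
-/
import Mathlib
import Fermat.Agent.ESJ.Red.R1
import Fermat.Agent.Lib.Red.InstPlace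

set_option autoImplicit false

namespace Fermat.Agent.ESJ

open ModularCurve AlgebraicCurve Fermat.Agent.Lib.Red Fermat.Agent.Lib.FF

noncomputable section

set_option synthInstance.maxHeartbeats 400000 in
set_option maxHeartbeats 1000000 in
/-- **R2 modulo good reduction of the two charts.**  `ReductionInputsModL A N` from `hT3`,
`hT3'`. -/
theorem reductionInputsModL_of_lift (N ℓ : ℕ) [NeZero N] (hℓ : ℓ.Prime) (hℓN : ¬ ℓ ∣ N)
    (A : ValuationSubring (AlgebraicClosure ℚ)) (hA : A.LiesOverPrime ℓ)
    (hT3 : ∀ s : ↥(modularFunctionFieldFullC (IsLocalRing.ResidueField A) N),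
        (∀ Q : Place (IsLocalRing.ResidueField A)
            ↥(modularFunctionFieldFullC (IsLocalRing.ResidueField A) N),
          0 ≤ Q.ord (xk (IsLocalRing.ResidueField A) N) → 0 ≤ Q.ord s) →
        ∃ y : Ow A (IsLocalRing.residue A) N (natCast_residue_ne_zero A hℓ hA N hℓN),
          redF A (IsLocalRing.residue A) N (OneStepGlue.residue_eq_zero_of_not_isUnit A)
            (natCast_residue_ne_zero A hℓ hA N hℓN) y = s ∧
          ∀ P : Place (AlgebraicClosure ℚ)
              ↥(laurentBaseChange (AlgebraicClosure ℚ) (modularFunctionFieldFull N)),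
            0 ≤ P.ord (xL (AlgebraicClosure ℚ) N) →
              0 ≤ P.ord (y : ↥(laurentBaseChange (AlgebraicClosure ℚ)
                (modularFunctionFieldFull N))))
    (hT3' : ∀ s : ↥(modularFunctionFieldFullC (IsLocalRing.ResidueField A) N),
        (∀ Q : Place (IsLocalRing.ResidueField A)
            ↥(modularFunctionFieldFullC (IsLocalRing.ResidueField A) N),
          Q.ord (xk (IsLocalRing.ResidueField A) N) ≤ 0 → 0 ≤ Q.ord s) →
        ∃ y : Ow A (IsLocalRing.residue A) N (natCast_residue_ne_zero A hℓ hA N hℓN),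
          redF A (IsLocalRing.residue A) N (OneStepGlue.residue_eq_zero_of_not_isUnit A)
            (natCast_residue_ne_zero A hℓ hA N hℓN) y = s ∧
          ∀ P : Place (AlgebraicClosure ℚ)
              ↥(laurentBaseChange (AlgebraicClosure ℚ) (modularFunctionFieldFull N)),
            P.ord (xL (AlgebraicClosure ℚ) N) ≤ 0 →
              0 ≤ P.ord (y : ↥(laurentBaseChange (AlgebraicClosure ℚ)
                (modularFunctionFieldFull N)))) :
    ReductionInputsModL A N := by
  have : IsAlgClosed (IsLocalRing.ResidueField A) := CharP.isAlgClosed_residueField A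
  have hNk : (N : IsLocalRing.ResidueField A) ≠ 0 := natCast_residue_ne_zero A hℓ hA N hℓN
  have hπ := OneStepGlue.residue_eq_zero_of_not_isUnit A
  have hsurj : Function.Surjective (IsLocalRing.residue A) := IsLocalRing.residue_surjective
  set B : BaseFn.Data A (IsLocalRing.residue A) N := BaseFn.Data.ofJ A (IsLocalRing.residue A) N
    with hB
  have hx : B.x = xL (AlgebraicClosure ℚ) N := BaseFn.Data.ofJ_x A (IsLocalRing.residue A) N
  have hxt : B.xt hπ hNk = xk (IsLocalRing.ResidueField A) N :=
    BaseFn.Data.ofJ_xt A (IsLocalRing.residue A) N hπ hNk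
  have hsep : Algebra.IsSeparable
      ↥(IntermediateField.adjoin (IsLocalRing.ResidueField A) {B.xt hπ hNk})
      ↥(modularFunctionFieldFullC (IsLocalRing.ResidueField A) N) := by
    rw [hxt]
    exact ModL.isSeparable_xk (IsLocalRing.ResidueField A) N hNk
  refine InstPlace.reductionInputsAlong B hπ hsurj hNk ?_ ?_
  · rw [hx, hxt]
    exact hT3
  · rw [hx, hxt]
    exact hT3'

end

end Fermat.Agent.ESJ
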