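import Mathlib
import Fermat.Agent.ESJ.Interfaces
import Fermat.Agent.ESJ.HeckeInputs
import Fermat.Agent.Lib.Red.Ow
import Fermat.Agent.Lib.FF.CharP.ModLInst
import Fermat.Agent.Lib.Red.PlaceRedChart

/-!
# ESJ / RED — R2 (`ReductionInputsModL`) from a place reduction stated on the Gauss ring `O_w`

The PLACE layer (`Lib/Red/PlaceRedChart.exists_reduction_of_charts`) produces a map of places
`r` with the specialization formula `r_* div(y) = div(red y)` for all `y ∈ O_w` with
`red y ≠ 0`.  This file converts that statement into the Prelude predicates: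

* `isPlaceReductionAlong_of_ow` : `IsPlaceReductionAlong A π N r` (general `L`, `A`, `π`);
* `reductionInputsAlong_of_ow` : `ReductionInputsAlong A π N` (adds
  `PrincipalGeneratedByIntegral`, `Lib.Red.principalGeneratedByIntegral'`);
* `reductionInputsModL_of_ow` : `ReductionInputsModL A N` for a valuation subring `A` of `ℚ̄`
  (the degrees of all places are `1` on both sides);
* `reductionInputsModL_of_charts` : `ReductionInputsModL A N` from the chart predicate
  `PlaceRed.IsChart` for a base function `x ∈ O_w` and for `x' = 1/x`.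
-/

set_option autoImplicit false

namespace Fermat.Agent.ESJ.Red

open ModularCurve AlgebraicCurve HahnSeries Fermat.Agent.Lib.Red

section General

variable {L : Type*} [Field L] [Algebra ℚ L] (A : ValuationSubring L) {k : Type} [Field k]
  (π : A →+* k) (N : ℕ) [NeZero N]

/-- The Prelude predicate `IsPlaceReductionAlong` from the specialization formula on `O_w`. -/
theorem isPlaceReductionAlong_of_ow (hπ : ∀ a : A, ¬ IsUnit a → π a = 0) (hNk : (N : k) ≠ 0)
    (r : Place L (laurentBaseChange L (modularFunctionFieldFull N)) →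
      Place k (modularFunctionFieldFullC k N))
    (hdeg : ∀ P, (r P).deg = P.deg)
    (hr : ∀ y : Ow A π N hNk, redF A π N hπ hNk y ≠ 0 →
      ∀ D : Divisor L (laurentBaseChange L (modularFunctionFieldFull N)),
        (∀ P, D P = P.ord (y : laurentBaseChange L (modularFunctionFieldFull N))) →
        ∀ Q, Finsupp.mapDomain r D Q = Q.ord (redF A π N hπ hNk y)) :
    IsPlaceReductionAlong A π N r := by
  refine ⟨hdeg, fun y hy hyk hne D hD Q => ?_⟩
  have hy' : incl A y ∈ laurentBaseChange L (modularFunctionFieldFull N) := hy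
  have hcoe : ((redF A π N hπ hNk ⟨⟨incl A y, hy'⟩, incl_mem_gaussRing A π y⟩ :
      modularFunctionFieldFullC k N) : LaurentSeries k) = coeffMap π y :=
    coe_redF_incl hπ hNk y hy'
  have hred : redF A π N hπ hNk ⟨⟨incl A y, hy'⟩, incl_mem_gaussRing A π y⟩ =
      ⟨coeffMap π y, hyk⟩ := Subtype.ext hcoe
  have hne' : redF A π N hπ hNk ⟨⟨incl A y, hy'⟩, incl_mem_gaussRing A π y⟩ ≠ 0 := by
    rw [hred]
    intro h
    exact hne (congrArg Subtype.val h)
  have h := hr ⟨⟨incl A y, hy'⟩, incl_mem_gaussRing A π y⟩ hne' D hD Q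
  rw [hred] at h
  exact h

/-- `ReductionInputsAlong` from a place map with the specialization formula on `O_w`. -/
theorem reductionInputsAlong_of_ow (hπ : ∀ a : A, ¬ IsUnit a → π a = 0) (hNk : (N : k) ≠ 0)
    (hfin : ∀ f : laurentBaseChange L (modularFunctionFieldFull N), f ≠ 0 →
      ∃ D : Divisor L (laurentBaseChange L (modularFunctionFieldFull N)), ∀ P, D P = P.ord f)
    (r : Place L (laurentBaseChange L (modularFunctionFieldFull N)) →
      Place k (modularFunctionFieldFullC k N))
    (hdeg : ∀ P, (r P).deg = P.deg)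
    (hr : ∀ y : Ow A π N hNk, redF A π N hπ hNk y ≠ 0 →
      ∀ D : Divisor L (laurentBaseChange L (modularFunctionFieldFull N)),
        (∀ P, D P = P.ord (y : laurentBaseChange L (modularFunctionFieldFull N))) →
        ∀ Q, Finsupp.mapDomain r D Q = Q.ord (redF A π N hπ hNk y)) :
    ReductionInputsAlong A π N :=
  ⟨r, isPlaceReductionAlong_of_ow A π N hπ hNk r hdeg hr,
    principalGeneratedByIntegral' A π N hNk hfin⟩

end General

section ModL

set_option synthInstance.maxHeartbeats 400000 in
set_option maxHeartbeats 1000000 in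
/-- **R2 from the PLACE layer**: `ReductionInputsModL A N` from a place map
`r : Pl(ℚ̄·F_N) → Pl(F~_N)` with `r_* div(y) = div(red y)` for all `y ∈ O_w`, `red y ≠ 0`. -/
theorem reductionInputsModL_of_ow (N : ℕ) [NeZero N]
    (A : ValuationSubring (AlgebraicClosure ℚ))
    (hπ : ∀ a : A, ¬ IsUnit a → IsLocalRing.residue A a = 0)
    (hNk : (N : IsLocalRing.ResidueField A) ≠ 0)
    (h : ∃ r : Place (AlgebraicClosure ℚ) (modularFunctionFieldBar N) →
        Place (IsLocalRing.ResidueField A)
          (modularFunctionFieldFullC (IsLocalRing.ResidueField A) N),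
      ∀ y : Ow A (IsLocalRing.residue A) N hNk, redF A (IsLocalRing.residue A) N hπ hNk y ≠ 0 →
        ∀ D : Divisor (AlgebraicClosure ℚ) (modularFunctionFieldBar N),
          (∀ P, D P = P.ord (y : modularFunctionFieldBar N)) →
          ∀ Q, Finsupp.mapDomain r D Q = Q.ord (redF A (IsLocalRing.residue A) N hπ hNk y)) :
    ReductionInputsModL A N := by
  have : IsAlgClosed (IsLocalRing.ResidueField A) :=
    Fermat.Agent.Lib.FF.CharP.isAlgClosed_residueField A
  obtain ⟨r, hr⟩ := h
  have hP := Fermat.Agent.ESJ.HeckeInputs.hasPrincipalDivisors_bar N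
  refine reductionInputsAlong_of_ow A (IsLocalRing.residue A) N hπ hNk (fun f hf => ?_) r
    (fun P => ?_) hr
  · obtain ⟨D, hD, -⟩ := hP.exists_divisor f hf
    exact ⟨D, hD⟩
  · rw [Fermat.Agent.Lib.FF.CharP.deg_eq_one_fullC, Fermat.Agent.ESJ.HeckeInputs.deg_eq_one_bar]

set_option synthInstance.maxHeartbeats 400000 in
set_option maxHeartbeats 1000000 in
/-- **R2 from two charts**: `ReductionInputsModL A N` from `PlaceRed.IsChart` for `x` and for
`x' = 1/x` (`PlaceRed.exists_reduction_of_charts`). -/
theorem reductionInputsModL_of_charts (N : ℕ) [NeZero N]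
    (A : ValuationSubring (AlgebraicClosure ℚ))
    (hπ : ∀ a : A, ¬ IsUnit a → IsLocalRing.residue A a = 0)
    (hNk : (N : IsLocalRing.ResidueField A) ≠ 0)
    (x x' : Ow A (IsLocalRing.residue A) N hNk)
    (hx : PlaceRed.IsChart A (IsLocalRing.residue A) (Ow A (IsLocalRing.residue A) N hNk)
      (redF A (IsLocalRing.residue A) N hπ hNk) x)
    (hx' : PlaceRed.IsChart A (IsLocalRing.residue A) (Ow A (IsLocalRing.residue A) N hNk)
      (redF A (IsLocalRing.residue A) N hπ hNk) x')
    (hxx' : (x : modularFunctionFieldBar N) * (x' : modularFunctionFieldBar N) = 1) :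
    ReductionInputsModL A N := by
  obtain ⟨r, -, -, hr⟩ := PlaceRed.exists_reduction_of_charts hx hx' hxx'
  exact reductionInputsModL_of_ow N A hπ hNk ⟨r, hr⟩

/-- The residue map kills the nonunits. -/
theorem residue_eq_zero_of_not_isUnit (A : ValuationSubring (AlgebraicClosure ℚ)) (a : A)
    (ha : ¬ IsUnit a) : IsLocalRing.residue A a = 0 :=
  (IsLocalRing.residue_eq_zero_iff a).mpr ((IsLocalRing.mem_maximalIdeal a).mpr ha)

end ModL

end Fermat.Agent.ESJ.Red
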