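/-
ESJ / RED — R2 (`ReductionInputsModL A N`) from good reduction `T3`, `T3'` of the two charts of
an arbitrary base function `B : BaseFn.Data A (residue A) N` (the "D8 shape" of the DISC layer,
the same hypotheses as `R1Base.redTorsionInjective_of_data` / `RedK.InstX.k18_of_base`).

`reductionInputsModL_of_T3` = `Lib.Red.InstPlaceX.exists_reduction_of_T3` (the place reduction
map of PLACE, instantiated on the modular curve) + `reductionInputsModL_of_ow` (the Prelude
predicates from the specialization formula on the Gauss ring).
-/
import Mathlib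
import Fermat.Agent.ESJ.Red.R2OfOw
import Fermat.Agent.Lib.Red.InstPlaceX

set_option autoImplicit false

namespace Fermat.Agent.ESJ.Red

open ModularCurve AlgebraicCurve HahnSeries Fermat.Agent.Lib.Red

set_option synthInstance.maxHeartbeats 400000 in
set_option maxHeartbeats 1000000 in
/-- **R2 for an arbitrary base function, modulo good reduction of its two charts.** -/
theorem reductionInputsModL_of_T3 (N : ℕ) [NeZero N]
    (A : ValuationSubring (AlgebraicClosure ℚ))
    (hπ : ∀ a : A, ¬ IsUnit a → IsLocalRing.residue A a = 0)
    (hNk : (N : IsLocalRing.ResidueField A) ≠ 0)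
    (B : BaseFn.Data A (IsLocalRing.residue A) N)
    (hT3 : ∀ s : ↥(modularFunctionFieldFullC (IsLocalRing.ResidueField A) N),
        (∀ Q : Place (IsLocalRing.ResidueField A)
            ↥(modularFunctionFieldFullC (IsLocalRing.ResidueField A) N),
          0 ≤ Q.ord (B.xt hπ hNk) → 0 ≤ Q.ord s) →
        ∃ y : Ow A (IsLocalRing.residue A) N hNk,
          redF A (IsLocalRing.residue A) N hπ hNk y = s ∧
          ∀ P : Place (AlgebraicClosure ℚ)
              ↥(laurentBaseChange (AlgebraicClosure ℚ) (modularFunctionFieldFull N)),
            0 ≤ P.ord B.x →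
              0 ≤ P.ord (y : ↥(laurentBaseChange (AlgebraicClosure ℚ)
                (modularFunctionFieldFull N))))
    (hT3' : ∀ s : ↥(modularFunctionFieldFullC (IsLocalRing.ResidueField A) N),
        (∀ Q : Place (IsLocalRing.ResidueField A)
            ↥(modularFunctionFieldFullC (IsLocalRing.ResidueField A) N),
          Q.ord (B.xt hπ hNk) ≤ 0 → 0 ≤ Q.ord s) →
        ∃ y : Ow A (IsLocalRing.residue A) N hNk,
          redF A (IsLocalRing.residue A) N hπ hNk y = s ∧
          ∀ P : Place (AlgebraicClosure ℚ)
              ↥(laurentBaseChange (AlgebraicClosure ℚ) (modularFunctionFieldFull N)),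
            P.ord B.x ≤ 0 →
              0 ≤ P.ord (y : ↥(laurentBaseChange (AlgebraicClosure ℚ)
                (modularFunctionFieldFull N)))) :
    ReductionInputsModL A N := by
  have : IsAlgClosed (IsLocalRing.ResidueField A) :=
    Fermat.Agent.Lib.FF.CharP.isAlgClosed_residueField A
  obtain ⟨r, -, -, hr⟩ := InstPlaceX.exists_reduction_of_T3 B hπ
    IsLocalRing.residue_surjective hNk hT3 hT3'
  exact reductionInputsModL_of_ow N A hπ hNk ⟨r, hr⟩

end Fermat.Agent.ESJ.Red
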